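/-
P3-LR, block [ALG] (pure algebra, Mathlib only).

`exists_eigenvector_ker`: the lattice step of Ribet's level raising.  `L`, `L'` are finite free
`ℤ`-modules with an action of a commutative ring `A`, `𝔞 ∋ p` an ideal of `A`, `i : L → L'` and
`iD : L' → L` equivariant and adjoint for pairings that are left non-degenerate mod `p`.  If the
`𝔞`-torsion of `ker (i mod p)` vanishes, every `𝔞`-eigenvector mod `p` in `ker (iD mod p)` can be
moved into `ker iD`.
-/
import Mathlib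

set_option autoImplicit false

namespace Fermat.Agent.P3LR.Alg

/-! ### Lemma 1: a finite module without `𝔞`-torsion is killed by some `r ≡ 1 (𝔞)` -/

section Kill

variable {A : Type*} [CommRing A] (𝔞 : Ideal A) {M : Type*} [AddCommGroup M] [Module A M]

theorem smul_mem_pow_succ_smul_top {k : ℕ} {s : A} (hs : s ∈ 𝔞) {x : M}
    (hx : x ∈ 𝔞 ^ k • (⊤ : Submodule A M)) : s • x ∈ 𝔞 ^ (k + 1) • (⊤ : Submodule A M) := by
  rw [pow_succ', Submodule.mul_smul]
  exact Submodule.smul_mem_smul hs hx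

theorem exists_kill_of_torsion_eq_bot [Finite M]
    (h : ∀ m : M, (∀ r ∈ 𝔞, r • m = 0) → m = 0) :
    ∃ r : A, r - 1 ∈ 𝔞 ∧ ∀ m : M, r • m = 0 := by
  classical
  -- the chain `𝔞 ^ n • ⊤` stabilises
  let F : ℕ →o (Submodule A M)ᵒᵈ :=
    { toFun := fun n => OrderDual.toDual (𝔞 ^ n • (⊤ : Submodule A M))
      monotone' := by
        intro a b hab
        show 𝔞 ^ b • (⊤ : Submodule A M) ≤ 𝔞 ^ a • (⊤ : Submodule A M)
        exact Submodule.smul_mono_left (Ideal.pow_le_pow_right hab) }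
  obtain ⟨n, hn⟩ := IsArtinian.monotone_stabilizes F
  have hstab : 𝔞 ^ n • (⊤ : Submodule A M) = 𝔞 ^ (n + 1) • (⊤ : Submodule A M) :=
    congrArg OrderDual.ofDual (hn (n + 1) (Nat.le_succ n))
  have hle : 𝔞 ^ n • (⊤ : Submodule A M) ≤ 𝔞 • (𝔞 ^ n • (⊤ : Submodule A M)) := by
    rw [← Submodule.mul_smul, ← pow_succ', ← hstab]
  have hfg : (𝔞 ^ n • (⊤ : Submodule A M)).FG := IsNoetherian.noetherian _
  obtain ⟨r, hr1, hr⟩ :=
    Submodule.exists_sub_one_mem_and_smul_eq_zero_of_fg_of_le_smul 𝔞 _ hfg hle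
  refine ⟨r, hr1, ?_⟩
  -- downward induction
  have key : ∀ k : ℕ, k ≤ n → ∀ x ∈ 𝔞 ^ (n - k) • (⊤ : Submodule A M), r • x = 0 := by
    intro k
    induction k with
    | zero => intro _ x hx; exact hr x (by simpa using hx)
    | succ k ih =>
      intro hk x hx
      apply h
      intro s hs
      rw [smul_comm]
      apply ih (Nat.le_of_succ_le hk)
      have : n - k = (n - (k + 1)) + 1 := by omega
      rw [this]
      exact smul_mem_pow_succ_smul_top 𝔞 hs hx
  intro m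
  apply key n le_rfl
  simp

end Kill

/-! ### Lemma 2: duality -/

section Duality

variable {K : Type*} [Field K] {V V' : Type*} [AddCommGroup V] [Module K V]
  [AddCommGroup V'] [Module K V'] [FiniteDimensional K V]

/-- If `β`, `β'` are injective pairings, `g` is adjoint to `f`, `ρ` is self-adjoint and kills
`ker f`, then `range ρ ≤ range g`. -/
theorem range_le_range_of_adjoint (f : V →ₗ[K] V') (g : V' →ₗ[K] V) (ρ : V →ₗ[K] V)
    (β : V →ₗ[K] Module.Dual K V) (β' : V' →ₗ[K] Module.Dual K V')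
    (hβ : Function.Injective β) (hβ' : Function.Injective β')
    (hadj : ∀ x y, β' (f x) y = β x (g y)) (hself : ∀ x y, β (ρ x) y = β x (ρ y))
    (hker : ∀ x, f x = 0 → ρ x = 0) : LinearMap.range ρ ≤ LinearMap.range g := by
  have hsurj : Function.Surjective β :=
    (LinearMap.injective_iff_surjective_of_finrank_eq_finrank
      (Subspace.dual_finrank_eq (K := K) (V := V)).symm).1 hβ
  rintro _ ⟨x, rfl⟩
  by_contra hx
  obtain ⟨φ, hφx, hφ⟩ := Submodule.exists_le_ker_of_notMem hx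
  obtain ⟨z, rfl⟩ := hsurj φ
  have hz : f z = 0 := by
    apply hβ'
    rw [map_zero]
    refine LinearMap.ext fun y => ?_
    rw [hadj, LinearMap.zero_apply]
    exact hφ ⟨y, rfl⟩
  apply hφx
  rw [← hself, hker z hz, map_zero, LinearMap.zero_apply]

end Duality

/-! ### Descending a pairing to a quotient -/

section LiftPairing

variable {L : Type*} [AddCommGroup L] (S : AddSubgroup L) {Z : Type*} [AddCommGroup Z]

/-- descend a biadditive pairing to the quotient by a subgroup contained in both kernels -/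
def liftPairing (B : L →+ L →+ Z) (h1 : ∀ s ∈ S, ∀ y, B s y = 0) (h2 : ∀ x, ∀ s ∈ S, B x s = 0) :
    (L ⧸ S) →+ (L ⧸ S) →+ Z :=
  QuotientAddGroup.lift S
    (AddMonoidHom.mk' (fun x => QuotientAddGroup.lift S (B x) (fun s hs => h2 x s hs))
      (fun x x' => by
        refine QuotientAddGroup.addMonoidHom_ext S (AddMonoidHom.ext fun y => ?_)
        show B (x + x') y = B x y + B x' y
        rw [map_add, AddMonoidHom.add_apply]))
    (fun s hs => by
      refine QuotientAddGroup.addMonoidHom_ext S (AddMonoidHom.ext fun y => ?_)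
      exact h1 s hs y)

@[simp] theorem liftPairing_mk (B : L →+ L →+ Z) (h1 : ∀ s ∈ S, ∀ y, B s y = 0)
    (h2 : ∀ x, ∀ s ∈ S, B x s = 0) (x y : L) :
    liftPairing S B h1 h2 (QuotientAddGroup.mk x) (QuotientAddGroup.mk y) = B x y := rfl

end LiftPairing

/-! ### The submodule `pL` and the finite quotient `L / pL` -/

section PSub

variable (A : Type*) [CommRing A] (p : ℕ) (L : Type*) [AddCommGroup L] [Module A L]

/-- `pL` as an `A`-submodule of `L` -/
def pSub : Submodule A L := LinearMap.range ((p : A) • (LinearMap.id : L →ₗ[A] L))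

variable {A p L}

theorem natCast_smul_eq (z : L) : (p : A) • z = (p : ℤ) • z := by
  rw [Nat.cast_smul_eq_nsmul, natCast_zsmul]

theorem mem_pSub {x : L} : x ∈ pSub A p L ↔ ∃ z, x = (p : ℤ) • z := by
  constructor
  · rintro ⟨z, rfl⟩
    exact ⟨z, by simp [natCast_smul_eq (A := A)]⟩
  · rintro ⟨z, rfl⟩
    exact ⟨z, by simp [natCast_smul_eq (A := A)]⟩

theorem mk_eq_zero_iff {x : L} :
    (Submodule.Quotient.mk x : L ⧸ pSub A p L) = 0 ↔ ∃ z, x = (p : ℤ) • z := by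
  rw [Submodule.Quotient.mk_eq_zero, mem_pSub]

theorem nsmul_quot_eq_zero (v : L ⧸ pSub A p L) : p • v = 0 := by
  obtain ⟨x, rfl⟩ := Submodule.Quotient.mk_surjective _ v
  rw [← Submodule.Quotient.mk_smul, mk_eq_zero_iff]
  exact ⟨x, by rw [natCast_zsmul]⟩

theorem finite_quot [Module.Finite ℤ L] (hp : p ≠ 0) : Finite (L ⧸ pSub A p L) := by
  have hfin : Module.Finite ℤ (L ⧸ pSub A p L) :=
    Module.Finite.of_surjective ((pSub A p L).mkQ.toAddMonoidHom.toIntLinearMap)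
      (Submodule.Quotient.mk_surjective _)
  refine Module.finite_of_fg_torsion _ ?_
  intro v
  refine ⟨⟨(p : ℤ), ?_⟩, ?_⟩
  · exact mem_nonZeroDivisors_of_ne_zero (by exact_mod_cast hp)
  · show (p : ℤ) • v = 0
    rw [natCast_zsmul]
    exact nsmul_quot_eq_zero v

end PSub

/-! ### The main theorem -/

section Main

variable {A : Type*} [CommRing A] (𝔞 : Ideal A) (p : ℕ)
  {L L' : Type*} [AddCommGroup L] [Module A L] [AddCommGroup L'] [Module A L']

/-- `i mod p` -/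
def redMap (i : L →ₗ[A] L') : (L ⧸ pSub A p L) →ₗ[A] (L' ⧸ pSub A p L') :=
  (pSub A p L).mapQ (pSub A p L') i (by
    rintro _ ⟨z, rfl⟩
    exact ⟨i z, by simp⟩)

@[simp] theorem redMap_mk (i : L →ₗ[A] L') (x : L) :
    redMap p i (Submodule.Quotient.mk x) = Submodule.Quotient.mk (i x) := rfl

/-- **Step A.** -/
theorem exists_kill_ker [Module.Finite ℤ L] (hp : p ≠ 0) (i : L →ₗ[A] L')
    (hinj : ∀ x : L, (∀ r ∈ 𝔞, ∃ z, r • x = (p : ℤ) • z) → (∃ z, i x = (p : ℤ) • z) →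
      ∃ z, x = (p : ℤ) • z) :
    ∃ r₀ : A, r₀ - 1 ∈ 𝔞 ∧ ∀ x : L, (∃ z, i x = (p : ℤ) • z) → ∃ z, r₀ • x = (p : ℤ) • z := by
  haveI : Finite (L ⧸ pSub A p L) := finite_quot hp
  haveI : Finite (LinearMap.ker (redMap p i)) := Subtype.finite
  obtain ⟨r₀, hr₀, hk⟩ := exists_kill_of_torsion_eq_bot 𝔞 (M := LinearMap.ker (redMap p i)) (by
    rintro ⟨v, hv⟩ hm
    obtain ⟨x, rfl⟩ := Submodule.Quotient.mk_surjective _ v
    rw [LinearMap.mem_ker, redMap_mk, mk_eq_zero_iff] at hv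
    apply Subtype.ext
    show (Submodule.Quotient.mk x : L ⧸ pSub A p L) = 0
    rw [mk_eq_zero_iff]
    refine hinj x (fun r hr => ?_) hv
    have h1 := congrArg Subtype.val (hm r hr)
    have h2 : (Submodule.Quotient.mk (r • x) : L ⧸ pSub A p L) = 0 := h1
    exact mk_eq_zero_iff.1 h2)
  refine ⟨r₀, hr₀, fun x hx => ?_⟩
  have hmem : (Submodule.Quotient.mk x : L ⧸ pSub A p L) ∈ LinearMap.ker (redMap p i) := by
    rw [LinearMap.mem_ker, redMap_mk, mk_eq_zero_iff]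
    exact hx
  have h1 := congrArg Subtype.val (hk ⟨_, hmem⟩)
  have h2 : (Submodule.Quotient.mk (r₀ • x) : L ⧸ pSub A p L) = 0 := h1
  exact mk_eq_zero_iff.1 h2

theorem zsmul_zmod_eq_zero (c : ZMod p) : (p : ℤ) • c = 0 := by
  rw [zsmul_eq_mul, Int.cast_natCast, ZMod.natCast_self, zero_mul]

/-- the pairing mod `p` -/
def redPairing (B : L →+ L →+ ZMod p) :
    (L ⧸ pSub A p L) →+ (L ⧸ pSub A p L) →+ ZMod p :=
  liftPairing (pSub A p L).toAddSubgroup B
    (fun s hs y => by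
      obtain ⟨z, rfl⟩ := mem_pSub.1 hs
      rw [map_zsmul, AddMonoidHom.smul_apply, zsmul_zmod_eq_zero])
    (fun x s hs => by
      obtain ⟨z, rfl⟩ := mem_pSub.1 hs
      rw [map_zsmul, zsmul_zmod_eq_zero])

@[simp] theorem redPairing_mk (B : L →+ L →+ ZMod p) (x y : L) :
    redPairing (A := A) p B (Submodule.Quotient.mk x) (Submodule.Quotient.mk y) = B x y := rfl

/-- a biadditive pairing of `ZMod p`-spaces as a linear map to the dual -/
def mkβ {V : Type*} [AddCommGroup V] [Module (ZMod p) V] (P : V →+ V →+ ZMod p) :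
    V →ₗ[ZMod p] Module.Dual (ZMod p) V :=
  AddMonoidHom.toZModLinearMap p
    (AddMonoidHom.mk' (fun v => (P v).toZModLinearMap p) (fun v w => by
      refine LinearMap.ext fun u => ?_
      simp))

@[simp] theorem mkβ_apply {V : Type*} [AddCommGroup V] [Module (ZMod p) V]
    (P : V →+ V →+ ZMod p) (v w : V) : mkβ p P v w = P v w := rfl

/-- Lemma 2 in additive form, for `ZMod p`-spaces. -/
theorem exists_preimage_of_adjoint [Fact p.Prime] {V V' : Type*} [AddCommGroup V]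
    [Module (ZMod p) V] [AddCommGroup V'] [Module (ZMod p) V'] [Finite V]
    (f : V →+ V') (g : V' →+ V) (ρ : V →+ V) (P : V →+ V →+ ZMod p) (P' : V' →+ V' →+ ZMod p)
    (hP : ∀ v, (∀ w, P v w = 0) → v = 0) (hP' : ∀ v, (∀ w, P' v w = 0) → v = 0)
    (hadj : ∀ x y, P' (f x) y = P x (g y)) (hself : ∀ x y, P (ρ x) y = P x (ρ y))
    (hker : ∀ x, f x = 0 → ρ x = 0) (v : V) : ∃ w, ρ v = g w := by
  haveI : FiniteDimensional (ZMod p) V := Module.Finite.of_finite
  have h := range_le_range_of_adjoint (f.toZModLinearMap p) (g.toZModLinearMap p)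
    (ρ.toZModLinearMap p) (mkβ p P) (mkβ p P')
    (by
      rw [injective_iff_map_eq_zero]
      intro v hv
      exact hP v fun w => LinearMap.congr_fun hv w)
    (by
      rw [injective_iff_map_eq_zero]
      intro v hv
      exact hP' v fun w => LinearMap.congr_fun hv w)
    hadj hself hker
  obtain ⟨w, hw⟩ := h ⟨v, rfl⟩
  exact ⟨w, hw.symm⟩

/-- **Step B** (duality). -/
theorem exists_preimage_mod_p [Fact p.Prime] [Module.Finite ℤ L] (i : L →ₗ[A] L')
    (iD : L' →ₗ[A] L) (B : L →+ L →+ ZMod p) (B' : L' →+ L' →+ ZMod p)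
    (hB : ∀ x, (∀ y, B x y = 0) → ∃ z, x = (p : ℤ) • z)
    (hB' : ∀ x, (∀ y, B' x y = 0) → ∃ z, x = (p : ℤ) • z)
    (hadj : ∀ x y, B' (i x) y = B x (iD y))
    (r₀ : A) (hself : ∀ x y, B (r₀ • x) y = B x (r₀ • y))
    (hr₀ : ∀ x : L, (∃ z, i x = (p : ℤ) • z) → ∃ z, r₀ • x = (p : ℤ) • z) (x : L) :
    ∃ (y : L') (z : L), r₀ • x = iD y + (p : ℤ) • z := by
  have hp : p ≠ 0 := (Fact.out : p.Prime).ne_zero
  letI : Module (ZMod p) (L ⧸ pSub A p L) := AddCommGroup.zmodModule nsmul_quot_eq_zero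
  letI : Module (ZMod p) (L' ⧸ pSub A p L') := AddCommGroup.zmodModule nsmul_quot_eq_zero
  haveI : Finite (L ⧸ pSub A p L) := finite_quot hp
  obtain ⟨w, hw⟩ := exists_preimage_of_adjoint p (redMap p i).toAddMonoidHom
    (redMap p iD).toAddMonoidHom
    ((LinearMap.lsmul A (L ⧸ pSub A p L)) r₀).toAddMonoidHom
    (redPairing (A := A) p B) (redPairing (A := A) p B')
    (by
      intro v hv
      obtain ⟨x, rfl⟩ := Submodule.Quotient.mk_surjective _ v
      rw [mk_eq_zero_iff]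
      exact hB x fun y => hv (Submodule.Quotient.mk y))
    (by
      intro v hv
      obtain ⟨x, rfl⟩ := Submodule.Quotient.mk_surjective _ v
      rw [mk_eq_zero_iff]
      exact hB' x fun y => hv (Submodule.Quotient.mk y))
    (by
      intro v w
      obtain ⟨x, rfl⟩ := Submodule.Quotient.mk_surjective _ v
      obtain ⟨y, rfl⟩ := Submodule.Quotient.mk_surjective _ w
      exact hadj x y)
    (by
      intro v w
      obtain ⟨x, rfl⟩ := Submodule.Quotient.mk_surjective _ v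
      obtain ⟨y, rfl⟩ := Submodule.Quotient.mk_surjective _ w
      exact hself x y)
    (by
      intro v hv
      obtain ⟨x, rfl⟩ := Submodule.Quotient.mk_surjective _ v
      have hv' : (Submodule.Quotient.mk (i x) : L' ⧸ pSub A p L') = 0 := hv
      have := hr₀ x (mk_eq_zero_iff.1 hv')
      show (Submodule.Quotient.mk (r₀ • x) : L ⧸ pSub A p L) = 0
      exact mk_eq_zero_iff.2 this)
    (Submodule.Quotient.mk x)
  obtain ⟨y, rfl⟩ := Submodule.Quotient.mk_surjective _ w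
  have hw' : (Submodule.Quotient.mk (r₀ • x) : L ⧸ pSub A p L) = Submodule.Quotient.mk (iD y) := hw
  rw [← sub_eq_zero, ← Submodule.Quotient.mk_sub, mk_eq_zero_iff] at hw'
  obtain ⟨z, hz⟩ := hw'
  exact ⟨y, z, by rw [← hz]; abel⟩

/-- **Step C** (Nakayama on `L ⧸ range iD`). -/
theorem exists_kill_coker [Module.Finite ℤ L] (hp𝔞 : (p : A) ∈ 𝔞) (iD : L' →ₗ[A] L)
    (r₀ : A) (hr₀ : r₀ - 1 ∈ 𝔞) (h : ∀ x : L, ∃ (y : L') (z : L), r₀ • x = iD y + (p : ℤ) • z) :
    ∃ r₁ : A, r₁ - 1 ∈ 𝔞 ∧ ∀ x : L, ∃ y : L', r₁ • x = iD y := by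
  haveI : Module.Finite A L := Module.Finite.of_restrictScalars_finite ℤ A L
  have hfg : (⊤ : Submodule A (L ⧸ LinearMap.range iD)).FG := Module.Finite.fg_top
  have hle : (⊤ : Submodule A (L ⧸ LinearMap.range iD)) ≤
      𝔞 • (⊤ : Submodule A (L ⧸ LinearMap.range iD)) := by
    intro c _
    obtain ⟨x, rfl⟩ := Submodule.Quotient.mk_surjective _ c
    obtain ⟨y, z, hyz⟩ := h x
    have h1 : (Submodule.Quotient.mk x : L ⧸ LinearMap.range iD) =
        (1 - r₀) • Submodule.Quotient.mk x + (p : A) • Submodule.Quotient.mk z := by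
      rw [sub_smul, one_smul, ← Submodule.Quotient.mk_smul, ← Submodule.Quotient.mk_smul, hyz,
        Submodule.Quotient.mk_add, natCast_smul_eq (A := A)]
      have : (Submodule.Quotient.mk (iD y) : L ⧸ LinearMap.range iD) = 0 :=
        (Submodule.Quotient.mk_eq_zero _).2 ⟨y, rfl⟩
      rw [this, zero_add]
      abel
    rw [h1]
    refine Submodule.add_mem _ (Submodule.smul_mem_smul ?_ Submodule.mem_top)
      (Submodule.smul_mem_smul hp𝔞 Submodule.mem_top)
    have : 1 - r₀ = -(r₀ - 1) := by ring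
    rw [this]
    exact 𝔞.neg_mem hr₀
  obtain ⟨r₁, hr₁, hk⟩ :=
    Submodule.exists_sub_one_mem_and_smul_eq_zero_of_fg_of_le_smul 𝔞 _ hfg hle
  refine ⟨r₁, hr₁, fun x => ?_⟩
  have h2 := hk (Submodule.Quotient.mk x) Submodule.mem_top
  rw [← Submodule.Quotient.mk_smul, Submodule.Quotient.mk_eq_zero] at h2
  obtain ⟨y, hy⟩ := h2
  exact ⟨y, hy.symm⟩

/-- **[ALG]**: the lattice step of level raising. -/
theorem exists_eigenvector_ker [Fact p.Prime] (hp𝔞 : (p : A) ∈ 𝔞)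
    [Module.Free ℤ L] [Module.Finite ℤ L]
    (i : L →ₗ[A] L') (iD : L' →ₗ[A] L)
    (B : L →+ L →+ ZMod p) (B' : L' →+ L' →+ ZMod p)
    (hB : ∀ x, (∀ y, B x y = 0) → ∃ z, x = (p : ℤ) • z)
    (hB' : ∀ x, (∀ y, B' x y = 0) → ∃ z, x = (p : ℤ) • z)
    (hadj : ∀ x y, B' (i x) y = B x (iD y))
    (hself : ∀ (r : A) x y, B (r • x) y = B x (r • y))
    (hinj : ∀ x : L, (∀ r ∈ 𝔞, ∃ z, r • x = (p : ℤ) • z) → (∃ z, i x = (p : ℤ) • z) →
      ∃ z, x = (p : ℤ) • z)
    (y : L') (hy : ¬ ∃ z, y = (p : ℤ) • z) (hyeig : ∀ r ∈ 𝔞, ∃ z, r • y = (p : ℤ) • z)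
    (hyD : ∃ z, iD y = (p : ℤ) • z) :
    ∃ y' : L', iD y' = 0 ∧ (¬ ∃ z, y' = (p : ℤ) • z) ∧
      ∀ r ∈ 𝔞, ∃ z, iD z = 0 ∧ r • y' = (p : ℤ) • z := by
  have hp : p ≠ 0 := (Fact.out : p.Prime).ne_zero
  have hpZ : (p : ℤ) ≠ 0 := by exact_mod_cast hp
  obtain ⟨r₀, hr₀, hk₀⟩ := exists_kill_ker 𝔞 p hp i hinj
  obtain ⟨r₁, hr₁, hk₁⟩ := exists_kill_coker 𝔞 p hp𝔞 iD r₀ hr₀
    (exists_preimage_mod_p p i iD B B' hB hB' hadj r₀ (hself r₀) hk₀)
  obtain ⟨z, hz⟩ := hyD
  -- `z` is killed by `𝔞` modulo `range iD`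
  have hz𝔞 : ∀ r ∈ 𝔞, ∃ w, r • z = iD w := by
    intro r hr
    obtain ⟨w, hw⟩ := hyeig r hr
    refine ⟨w, ?_⟩
    have h1 : (p : ℤ) • (r • z) = (p : ℤ) • iD w := by
      rw [smul_comm, ← hz, ← map_smul, hw, map_zsmul]
    exact smul_right_injective L hpZ h1
  -- hence `z ∈ range iD`
  obtain ⟨w₁, hw₁⟩ := hk₁ z
  obtain ⟨w₂, hw₂⟩ := hz𝔞 (1 - r₁) (by
    have : 1 - r₁ = -(r₁ - 1) := by ring
    rw [this]; exact 𝔞.neg_mem hr₁)
  have hzr : z = iD (w₁ + w₂) := by
    rw [map_add, ← hw₁, ← hw₂, sub_smul, one_smul]; abel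
  refine ⟨y - (p : ℤ) • (w₁ + w₂), ?_, ?_, ?_⟩
  · rw [map_sub, map_zsmul, hz, ← hzr, sub_self]
  · rintro ⟨u, hu⟩
    exact hy ⟨u + (w₁ + w₂), by rw [smul_add, ← hu]; abel⟩
  · intro r hr
    obtain ⟨w, hw⟩ := hyeig r hr
    refine ⟨w - r • (w₁ + w₂), ?_, ?_⟩
    · have h1 : (p : ℤ) • iD (w - r • (w₁ + w₂)) = 0 := by
        rw [← map_zsmul, smul_sub, ← hw, smul_comm, ← smul_sub, map_smul, map_sub, map_zsmul,
          hz, ← hzr, sub_self, smul_zero]
      exact (smul_eq_zero.1 h1).resolve_left hpZ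
    · rw [smul_sub, hw, smul_sub, smul_comm]

end Main

end Fermat.Agent.P3LR.Alg
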