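/-
P3-LR ASSEMBLY, interface definitions.  The abstract core `P3LR/Assembly.lean` proves the frozen
S41 from:
* `DegData N q hqN` : the four degeneracy operators `res, resEta : Hom(Γ₀(N), A) → Hom(Γ₀(Nq), A)`,
  `cores, coresEta : Hom(Γ₀(Nq), A) → Hom(Γ₀(N), A)`, natural in the coefficient group `A`,
  preserving parabolic classes, with (R1) (the matrix of `i† ∘ i`), (R2) (Hecke equivariance) and
  (U2) (`U_q² = 1` on `ker i†`);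
* `PDData p D` : Poincaré pairings mod `p` on `Λ_N = parHomAdd N ℤ` and `Λ_{Nq}`, left
  non-degenerate mod `p`, for which `res ⊣ cores`, `resEta ⊣ coresEta` and the `T_ℓ` are
  self-adjoint at level `N`;
* `IharaInput p D` : Ihara's lemma in the form "the kernel of `res + resEta` mod `p` consists of
  congruence homomorphisms".
-/
import Mathlib
import Fermat.Agent.N4F.Tors.Outputs
import Fermat.Agent.S16.Lower.USystem

set_option autoImplicit false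

open CongruenceSubgroup
open scoped MatrixGroups

noncomputable section

namespace Fermat.Agent.P3LR.AsmDefs

open Fermat.Agent.N4F.Tors.HeckeHom Fermat.Agent.N4F.Tors.Outputs
  Fermat.Agent.S16.Lower.USystem

/-- `Hom(Γ₀(N), A)` -/
abbrev HomG (N : ℕ) (A : Type) [AddCommGroup A] : Type := Additive ↥(Gamma0 N) →+ A

/-- **The degeneracy operators between levels `N` and `N q`** (`q ∤ N` prime), with the relations
used by the level raising argument. -/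
structure DegData (N q : ℕ) [Fact q.Prime] (hqN : ¬ q ∣ N) where
  /-- restriction along `Γ₀(Nq) ⊆ Γ₀(N)` -/
  res : ∀ (A : Type) [AddCommGroup A], HomG N A →+ HomG (N * q) A
  /-- restriction along `δ ↦ η δ η⁻¹`, `η = diag(q, 1)` -/
  resEta : ∀ (A : Type) [AddCommGroup A], HomG N A →+ HomG (N * q) A
  /-- corestriction (transfer) along `Γ₀(Nq) ⊆ Γ₀(N)` -/
  cores : ∀ (A : Type) [AddCommGroup A], HomG (N * q) A →+ HomG N A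
  /-- corestriction (transfer) along the `η`-twisted embedding -/
  coresEta : ∀ (A : Type) [AddCommGroup A], HomG (N * q) A →+ HomG N A
  res_comp : ∀ (A B : Type) [AddCommGroup A] [AddCommGroup B] (f : A →+ B) (φ : HomG N A),
    res B (f.comp φ) = f.comp (res A φ)
  resEta_comp : ∀ (A B : Type) [AddCommGroup A] [AddCommGroup B] (f : A →+ B) (φ : HomG N A),
    resEta B (f.comp φ) = f.comp (resEta A φ)
  cores_comp : ∀ (A B : Type) [AddCommGroup A] [AddCommGroup B] (f : A →+ B)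
    (ψ : HomG (N * q) A), cores B (f.comp ψ) = f.comp (cores A ψ)
  coresEta_comp : ∀ (A B : Type) [AddCommGroup A] [AddCommGroup B] (f : A →+ B)
    (ψ : HomG (N * q) A), coresEta B (f.comp ψ) = f.comp (coresEta A ψ)
  res_mem : ∀ (A : Type) [AddCommGroup A] {φ : HomG N A}, φ ∈ parHomAdd N A →
    res A φ ∈ parHomAdd (N * q) A
  resEta_mem : ∀ (A : Type) [AddCommGroup A] {φ : HomG N A}, φ ∈ parHomAdd N A →
    resEta A φ ∈ parHomAdd (N * q) A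
  cores_mem : ∀ (A : Type) [AddCommGroup A] {ψ : HomG (N * q) A}, ψ ∈ parHomAdd (N * q) A →
    cores A ψ ∈ parHomAdd N A
  coresEta_mem : ∀ (A : Type) [AddCommGroup A] {ψ : HomG (N * q) A}, ψ ∈ parHomAdd (N * q) A →
    coresEta A ψ ∈ parHomAdd N A
  /-- (R1) -/
  cores_res : ∀ φ : HomG N ℤ, φ ∈ parHomAdd N ℤ → cores ℤ (res ℤ φ) = (q + 1) • φ
  coresEta_resEta : ∀ φ : HomG N ℤ, φ ∈ parHomAdd N ℤ →
    coresEta ℤ (resEta ℤ φ) = (q + 1) • φ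
  cores_resEta : ∀ φ : HomG N ℤ, φ ∈ parHomAdd N ℤ →
    cores ℤ (resEta ℤ φ) = heckeAdd N q hqN φ
  coresEta_res : ∀ φ : HomG N ℤ, φ ∈ parHomAdd N ℤ →
    coresEta ℤ (res ℤ φ) = heckeAdd N q hqN φ
  /-- (R2) -/
  res_hecke : ∀ (ℓ : Nat.Primes) (hℓ : ¬ (ℓ : ℕ) ∣ N * q) (hℓN : ¬ (ℓ : ℕ) ∣ N) (φ : HomG N ℤ),
    φ ∈ parHomAdd N ℤ → res ℤ (heckeAddP N ℓ hℓN φ) = heckeAddP (N * q) ℓ hℓ (res ℤ φ)
  resEta_hecke : ∀ (ℓ : Nat.Primes) (hℓ : ¬ (ℓ : ℕ) ∣ N * q) (hℓN : ¬ (ℓ : ℕ) ∣ N)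
    (φ : HomG N ℤ), φ ∈ parHomAdd N ℤ →
    resEta ℤ (heckeAddP N ℓ hℓN φ) = heckeAddP (N * q) ℓ hℓ (resEta ℤ φ)
  cores_hecke : ∀ (ℓ : Nat.Primes) (hℓ : ¬ (ℓ : ℕ) ∣ N * q) (hℓN : ¬ (ℓ : ℕ) ∣ N)
    (ψ : HomG (N * q) ℤ), ψ ∈ parHomAdd (N * q) ℤ →
    cores ℤ (heckeAddP (N * q) ℓ hℓ ψ) = heckeAddP N ℓ hℓN (cores ℤ ψ)
  coresEta_hecke : ∀ (ℓ : Nat.Primes) (hℓ : ¬ (ℓ : ℕ) ∣ N * q) (hℓN : ¬ (ℓ : ℕ) ∣ N)
    (ψ : HomG (N * q) ℤ), ψ ∈ parHomAdd (N * q) ℤ →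
    coresEta ℤ (heckeAddP (N * q) ℓ hℓ ψ) = heckeAddP N ℓ hℓN (coresEta ℤ ψ)
  /-- (U2) -/
  U2 : ∀ ψ : HomG (N * q) ℂ, ψ ∈ parHomAdd (N * q) ℂ → cores ℂ ψ = 0 → coresEta ℂ ψ = 0 →
    uAdd (N * q) q (Dvd.intro_left N rfl) (uAdd (N * q) q (Dvd.intro_left N rfl) ψ) = ψ

/-- **Poincaré duality mod `p`** at the levels `N` and `N q`, compatible with `D`. -/
structure PDData (p : ℕ) {N q : ℕ} [Fact q.Prime] {hqN : ¬ q ∣ N} (D : DegData N q hqN) where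
  pdN : parHomAdd N ℤ →+ parHomAdd N ℤ →+ ZMod p
  pdM : parHomAdd (N * q) ℤ →+ parHomAdd (N * q) ℤ →+ ZMod p
  nondegN : ∀ x, (∀ y, pdN x y = 0) → ∃ z, x = (p : ℤ) • z
  nondegM : ∀ x, (∀ y, pdM x y = 0) → ∃ z, x = (p : ℤ) • z
  res_adj : ∀ (φ : parHomAdd N ℤ) (ψ : parHomAdd (N * q) ℤ),
    pdM ⟨D.res ℤ φ.1, D.res_mem ℤ φ.2⟩ ψ = pdN φ ⟨D.cores ℤ ψ.1, D.cores_mem ℤ ψ.2⟩
  resEta_adj : ∀ (φ : parHomAdd N ℤ) (ψ : parHomAdd (N * q) ℤ),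
    pdM ⟨D.resEta ℤ φ.1, D.resEta_mem ℤ φ.2⟩ ψ = pdN φ ⟨D.coresEta ℤ ψ.1, D.coresEta_mem ℤ ψ.2⟩
  hself : ∀ (ℓ : Nat.Primes) (hℓN : ¬ (ℓ : ℕ) ∣ N), ¬ (ℓ : ℕ) ∣ N * q → (ℓ : ℕ) ≠ p →
    ∀ φ ψ : parHomAdd N ℤ,
      pdN (heckeLattice N ℓ hℓN φ) ψ = pdN φ (heckeLattice N ℓ hℓN ψ)

/-- **Ihara's lemma** mod `p` in the form used by the assembly: the kernel of `res + resEta` on
parabolic classes mod `p` consists of congruence homomorphisms. -/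
def IharaInput (p : ℕ) {N q : ℕ} [Fact q.Prime] {hqN : ¬ q ∣ N} (D : DegData N q hqN) : Prop :=
  ∀ x₁ x₂ : HomG N (ZMod p), x₁ ∈ parHomAdd N (ZMod p) → x₂ ∈ parHomAdd N (ZMod p) →
    D.res (ZMod p) x₁ + D.resEta (ZMod p) x₂ = 0 →
    ∃ m : ℕ, 0 < m ∧ ∀ g : ↥(Gamma0 N), (g : SL(2, ℤ)) ∈ Gamma m →
      x₁ (Additive.ofMul g) = 0 ∧ x₂ (Additive.ofMul g) = 0

end Fermat.Agent.P3LR.AsmDefs
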