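/-
P3-LR ASSEMBLY, instantiation of the interface `AsmDefs.DegData` by the concrete degeneracy
operators of block (A):

* `res, resEta, cores, coresEta` := helper7's `resAdd, resEtaAdd, coresAdd, coresEtaAdd`
  (`P3LR/A/DegeneracyDefs.lean`), with their naturality in the coefficient group and stability of
  parabolic classes;
* (U2) := helper21's `uAdd_uAdd_of_ker` (`P3LR/A/AtkinLehnerFinal.lean`);
* (R1), (R2) are taken as the hypotheses `R1Hyp`, `R2Hyp` (in exactly the shape of the `DegData`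
  fields) by `degDataOf`.
-/
import Mathlib
import Fermat.Agent.P3LR.AsmDefs
import Fermat.Agent.P3LR.A.DegeneracyDefs
import Fermat.Agent.P3LR.A.AtkinLehnerFinal

set_option autoImplicit false

open CongruenceSubgroup
open scoped MatrixGroups

noncomputable section

namespace Fermat.Agent.P3LR.AsmInst

open Fermat.Agent.N4F.Tors.HeckeHom Fermat.Agent.N4F.Tors.Outputs
  Fermat.Agent.S16.Lower.USystem Fermat.Agent.P3LR.AsmDefs Fermat.Agent.P3LR.A.Degeneracy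

variable (N q : ℕ) [Fact q.Prime] (hqN : ¬ q ∣ N)

/-- **(R1)** for the concrete operators, over `ℤ`, on parabolic classes. -/
structure R1Hyp : Prop where
  cores_res : ∀ φ : HomG N ℤ, φ ∈ parHomAdd N ℤ →
    coresAdd N q (resAdd N q φ) = (q + 1) • φ
  coresEta_resEta : ∀ φ : HomG N ℤ, φ ∈ parHomAdd N ℤ →
    coresEtaAdd N q (resEtaAdd N q φ) = (q + 1) • φ
  cores_resEta : ∀ φ : HomG N ℤ, φ ∈ parHomAdd N ℤ →
    coresAdd N q (resEtaAdd N q φ) = heckeAdd N q hqN φ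
  coresEta_res : ∀ φ : HomG N ℤ, φ ∈ parHomAdd N ℤ →
    coresEtaAdd N q (resAdd N q φ) = heckeAdd N q hqN φ

/-- **(R2)** for the concrete operators, over `ℤ`, on parabolic classes. -/
structure R2Hyp : Prop where
  res_hecke : ∀ (ℓ : Nat.Primes) (hℓ : ¬ (ℓ : ℕ) ∣ N * q) (hℓN : ¬ (ℓ : ℕ) ∣ N) (φ : HomG N ℤ),
    φ ∈ parHomAdd N ℤ →
    resAdd N q (heckeAddP N ℓ hℓN φ) = heckeAddP (N * q) ℓ hℓ (resAdd N q φ)
  resEta_hecke : ∀ (ℓ : Nat.Primes) (hℓ : ¬ (ℓ : ℕ) ∣ N * q) (hℓN : ¬ (ℓ : ℕ) ∣ N)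
    (φ : HomG N ℤ), φ ∈ parHomAdd N ℤ →
    resEtaAdd N q (heckeAddP N ℓ hℓN φ) = heckeAddP (N * q) ℓ hℓ (resEtaAdd N q φ)
  cores_hecke : ∀ (ℓ : Nat.Primes) (hℓ : ¬ (ℓ : ℕ) ∣ N * q) (hℓN : ¬ (ℓ : ℕ) ∣ N)
    (ψ : HomG (N * q) ℤ), ψ ∈ parHomAdd (N * q) ℤ →
    coresAdd N q (heckeAddP (N * q) ℓ hℓ ψ) = heckeAddP N ℓ hℓN (coresAdd N q ψ)
  coresEta_hecke : ∀ (ℓ : Nat.Primes) (hℓ : ¬ (ℓ : ℕ) ∣ N * q) (hℓN : ¬ (ℓ : ℕ) ∣ N)
    (ψ : HomG (N * q) ℤ), ψ ∈ parHomAdd (N * q) ℤ →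
    coresEtaAdd N q (heckeAddP (N * q) ℓ hℓ ψ) = heckeAddP N ℓ hℓN (coresEtaAdd N q ψ)

variable {N q}

/-- **The concrete degeneracy data**, from (R1) and (R2). -/
def degDataOf (h1 : R1Hyp N q hqN) (h2 : R2Hyp N q) : DegData N q hqN where
  res _ _ := resAdd N q
  resEta _ _ := resEtaAdd N q
  cores _ _ := coresAdd N q
  coresEta _ _ := coresEtaAdd N q
  res_comp _ _ _ _ f φ := resAdd_comp N q f φ
  resEta_comp _ _ _ _ f φ := resEtaAdd_comp N q f φ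
  cores_comp _ _ _ _ f ψ := coresAdd_comp N q f ψ
  coresEta_comp _ _ _ _ f ψ := coresEtaAdd_comp N q f ψ
  res_mem _ _ _ hφ := resAdd_mem_parHomAdd N q hφ
  resEta_mem _ _ _ hφ := resEtaAdd_mem_parHomAdd N q hφ
  cores_mem _ _ _ hψ := coresAdd_mem_parHomAdd N q hψ
  coresEta_mem _ _ _ hψ := coresEtaAdd_mem_parHomAdd N q hψ
  cores_res := h1.cores_res
  coresEta_resEta := h1.coresEta_resEta
  cores_resEta := h1.cores_resEta
  coresEta_res := h1.coresEta_res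
  res_hecke := h2.res_hecke
  resEta_hecke := h2.resEta_hecke
  cores_hecke := h2.cores_hecke
  coresEta_hecke := h2.coresEta_hecke
  U2 ψ _ h₁ h₂ :=
    Fermat.Agent.P3LR.A.AtkinLehnerFinal.uAdd_uAdd_of_ker N q hqN (Dvd.intro_left N rfl) ψ h₁ h₂

@[simp] theorem degDataOf_res (h1 : R1Hyp N q hqN) (h2 : R2Hyp N q) (A : Type) [AddCommGroup A] :
    (degDataOf hqN h1 h2).res A = resAdd N q := rfl

@[simp] theorem degDataOf_resEta (h1 : R1Hyp N q hqN) (h2 : R2Hyp N q) (A : Type)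
    [AddCommGroup A] : (degDataOf hqN h1 h2).resEta A = resEtaAdd N q := rfl

@[simp] theorem degDataOf_cores (h1 : R1Hyp N q hqN) (h2 : R2Hyp N q) (A : Type)
    [AddCommGroup A] : (degDataOf hqN h1 h2).cores A = coresAdd N q := rfl

@[simp] theorem degDataOf_coresEta (h1 : R1Hyp N q hqN) (h2 : R2Hyp N q) (A : Type)
    [AddCommGroup A] : (degDataOf hqN h1 h2).coresEta A = coresEtaAdd N q := rfl

end Fermat.Agent.P3LR.AsmInst
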