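/-
P3-LR ASSEMBLY, closing the interface `AsmDefs.DegData` for the concrete degeneracy operators of
block (A): the hypotheses `R1Hyp`, `R2Hyp` of `P3LR/AsmInst.lean` are theorems.

* (R1) is helper7's `P3LR/A/Degeneracy.lean`
  (`coresAdd_resAdd`, `coresEtaAdd_resEtaAdd`, `coresAdd_resEtaAdd`, `coresEtaAdd_resAdd`).
* (R2), `ℓ ∤ N q`:
  - `cores`, `coresEta`: helper7's bridge `coresAdd_eq_P4`, `coresEtaAdd_eq_P4`
    (`P3LR/A/DegeneracyP4.lean`) to the S35-campaign twins `P4.Cores.coresAdd_heckeAdd`,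
    `P4.CoresEta.coresEtaAdd_heckeAdd`;
  - `res`: uniqueness of the Hecke cocycle (`heckeCoc_eq_of_eq`);
  - `resEta`: `resEta = (Atkin–Lehner conjugation) ∘ res` (`resEtaAdd_eq_comp_alConjW`) and
    `T_ℓ` commutes with the Atkin–Lehner conjugation (`P4.CoresEta.heckeAdd_comp_alConj`).

Output: `degData N q hqN : AsmDefs.DegData N q hqN`, with `rfl`-lemmas for its four operators.
-/
import Mathlib
import Fermat.Agent.P3LR.AsmInst
import Fermat.Agent.P3LR.A.Degeneracy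
import Fermat.Agent.P3LR.A.DegeneracyP4

set_option autoImplicit false

open CongruenceSubgroup
open scoped MatrixGroups

noncomputable section

namespace Fermat.Agent.P3LR.AsmInstFinal

open Fermat.Agent.N4F.Tors.HeckeHom Fermat.Agent.N4F.Tors.Outputs
  Fermat.Agent.S16.Lower.USystem Fermat.Agent.P3LR.AsmDefs Fermat.Agent.P3LR.A.Degeneracy
  Fermat.Agent.P3LR.AsmInst
open Fermat.Agent

variable (N q : ℕ) [Fact q.Prime] (hqN : ¬ q ∣ N)

/-! ### (R1) -/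

/-- **(R1)** holds for the concrete degeneracy operators. -/
theorem r1Hyp : R1Hyp N q hqN where
  cores_res φ _ := coresAdd_resAdd N q hqN φ
  coresEta_resEta φ _ := coresEtaAdd_resEtaAdd N q hqN φ
  cores_resEta φ _ := coresAdd_resEtaAdd N q hqN φ
  coresEta_res φ _ := coresEtaAdd_resAdd N q hqN φ

/-! ### (R2) -/

section R2

variable {ℓ : ℕ} [Fact ℓ.Prime] (hℓN : ¬ ℓ ∣ N) (hℓNq : ¬ ℓ ∣ N * q)

omit [Fact q.Prime] in
/-- the Hecke cocycle of `Γ₀(N q)` is the restriction of the one of `Γ₀(N)` -/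
theorem heckeCoc_incl (δ : ↥(Gamma0 (N * q))) (x : OnePoint (ZMod ℓ)) :
    heckeCoc N ℓ hℓN (incl N q δ) x = incl N q (heckeCoc (N * q) ℓ hℓNq δ x) :=
  (heckeCoc_eq_of_eq N ℓ hℓN (g := incl N q δ) (c := incl N q (heckeCoc (N * q) ℓ hℓNq δ x))
    (heckeRep_mul_eq (N * q) ℓ hℓNq δ x)).1

omit [Fact q.Prime] in
/-- **(R2) for `res`**: `res ∘ T_ℓ^N = T_ℓ^{N q} ∘ res`. -/
theorem resAdd_heckeAdd {A : Type*} [AddCommGroup A] (φ : Additive ↥(Gamma0 N) →+ A) :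
    resAdd N q (heckeAdd N ℓ hℓN φ) = heckeAdd (N * q) ℓ hℓNq (resAdd N q φ) := by
  refine AddMonoidHom.ext fun δ => ?_
  obtain ⟨δ, rfl⟩ := Additive.ofMul.surjective δ
  rw [resAdd_apply, heckeAdd_apply, heckeAdd_apply]
  refine Finset.sum_congr rfl fun x _ => ?_
  rw [resAdd_apply, heckeCoc_incl N q hℓN hℓNq δ x]

include hqN in
/-- `T_ℓ` commutes with the inverse Atkin–Lehner conjugation -/
theorem heckeAdd_comp_alConjW {A : Type*} [AddCommGroup A]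
    (ψ : Additive ↥(Gamma0 (N * q)) →+ A) :
    (heckeAdd (N * q) ℓ hℓNq ψ).comp (MonoidHom.toAdditive (P4.AtkinLehner.alConjW hqN)) =
      heckeAdd (N * q) ℓ hℓNq (ψ.comp (MonoidHom.toAdditive (P4.AtkinLehner.alConjW hqN))) := by
  have h := P4.CoresEta.heckeAdd_comp_alConj hqN hℓNq
    (ψ.comp (MonoidHom.toAdditive (P4.AtkinLehner.alConjW hqN)))
  have h1 : (ψ.comp (MonoidHom.toAdditive (P4.AtkinLehner.alConjW hqN))).comp
      (MonoidHom.toAdditive (P4.AtkinLehner.alConj hqN)) = ψ := by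
    refine AddMonoidHom.ext fun δ => ?_
    obtain ⟨δ, rfl⟩ := Additive.ofMul.surjective δ
    show ψ (Additive.ofMul (P4.AtkinLehner.alConjW hqN (P4.AtkinLehner.alConj hqN δ))) = _
    rw [P4.AtkinLehner.alConjW_alConj]
  rw [h1] at h
  rw [← h]
  refine AddMonoidHom.ext fun δ => ?_
  obtain ⟨δ, rfl⟩ := Additive.ofMul.surjective δ
  show heckeAdd (N * q) ℓ hℓNq _
    (Additive.ofMul (P4.AtkinLehner.alConj hqN (P4.AtkinLehner.alConjW hqN δ))) = _
  rw [P4.AtkinLehner.alConj_alConjW]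

include hqN in
/-- **(R2) for `resEta`**: `resEta ∘ T_ℓ^N = T_ℓ^{N q} ∘ resEta`. -/
theorem resEtaAdd_heckeAdd {A : Type*} [AddCommGroup A] (φ : Additive ↥(Gamma0 N) →+ A) :
    resEtaAdd N q (heckeAdd N ℓ hℓN φ) = heckeAdd (N * q) ℓ hℓNq (resEtaAdd N q φ) := by
  rw [resEtaAdd_eq_comp_alConjW N q hqN, resEtaAdd_eq_comp_alConjW N q hqN,
    resAdd_heckeAdd N q hℓN hℓNq, heckeAdd_comp_alConjW N q hqN hℓNq]

include hqN in
/-- **(R2) for `cores`**: `cores ∘ T_ℓ^{N q} = T_ℓ^N ∘ cores`. -/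
theorem coresAdd_heckeAdd {A : Type*} [AddCommGroup A]
    (ψ : Additive ↥(Gamma0 (N * q)) →+ A) :
    coresAdd N q (heckeAdd (N * q) ℓ hℓNq ψ) = heckeAdd N ℓ hℓN (coresAdd N q ψ) := by
  rw [coresAdd_eq_P4 N q hqN]
  exact P4.Cores.coresAdd_heckeAdd hqN hℓN hℓNq ψ

include hqN in
/-- **(R2) for `coresEta`**: `coresEta ∘ T_ℓ^{N q} = T_ℓ^N ∘ coresEta`. -/
theorem coresEtaAdd_heckeAdd {A : Type*} [AddCommGroup A]
    (ψ : Additive ↥(Gamma0 (N * q)) →+ A) :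
    coresEtaAdd N q (heckeAdd (N * q) ℓ hℓNq ψ) = heckeAdd N ℓ hℓN (coresEtaAdd N q ψ) := by
  rw [coresEtaAdd_eq_P4 N q hqN]
  exact P4.CoresEta.coresEtaAdd_heckeAdd hqN hℓN hℓNq ψ

end R2

include hqN in
/-- **(R2)** holds for the concrete degeneracy operators. -/
theorem r2Hyp : R2Hyp N q where
  res_hecke ℓ hℓ hℓN φ _ := by
    have : Fact (ℓ : ℕ).Prime := ⟨ℓ.2⟩
    exact resAdd_heckeAdd N q hℓN hℓ φ
  resEta_hecke ℓ hℓ hℓN φ _ := by
    have : Fact (ℓ : ℕ).Prime := ⟨ℓ.2⟩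
    exact resEtaAdd_heckeAdd N q hqN hℓN hℓ φ
  cores_hecke ℓ hℓ hℓN ψ _ := by
    have : Fact (ℓ : ℕ).Prime := ⟨ℓ.2⟩
    exact coresAdd_heckeAdd N q hqN hℓN hℓ ψ
  coresEta_hecke ℓ hℓ hℓN ψ _ := by
    have : Fact (ℓ : ℕ).Prime := ⟨ℓ.2⟩
    exact coresEtaAdd_heckeAdd N q hqN hℓN hℓ ψ

/-! ### The concrete degeneracy data -/

/-- **The degeneracy data of the pair `Γ₀(N q) ⊂ Γ₀(N)`**, `q ∤ N`: helper7's
`resAdd, resEtaAdd, coresAdd, coresEtaAdd` with (R1), (R2), (U2). -/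
def degData : DegData N q hqN := degDataOf hqN (r1Hyp N q hqN) (r2Hyp N q hqN)

@[simp] theorem degData_res (A : Type) [AddCommGroup A] :
    (degData N q hqN).res A = resAdd N q := rfl

@[simp] theorem degData_resEta (A : Type) [AddCommGroup A] :
    (degData N q hqN).resEta A = resEtaAdd N q := rfl

@[simp] theorem degData_cores (A : Type) [AddCommGroup A] :
    (degData N q hqN).cores A = coresAdd N q := rfl

@[simp] theorem degData_coresEta (A : Type) [AddCommGroup A] :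
    (degData N q hqN).coresEta A = coresEtaAdd N q := rfl

end Fermat.Agent.P3LR.AsmInstFinal
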