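/-
P3-LR, block [DS0] (Deligne–Serre lifting from a lattice): `M` a finite free `ℤ`-module with an
action of a commutative ring `A`, `𝔞` a maximal ideal of `A`, `y ∈ M ∖ pM` with `𝔞 • y ⊆ pM`.
Then there are a ring homomorphism `χ : A → ℂ`, a maximal ideal `𝔪'` of the ring of algebraic
integers and a nonzero `v ∈ ℂ ⊗ M` with `r v = χ(r) v` for all `r ∈ A` and `χ(𝔞) ⊆ 𝔪'`.
-/
import Mathlib
import Fermat.Agent.S49.LiftingAlgebra

set_option autoImplicit false

open scoped TensorProduct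

namespace Fermat.Agent.P3LR.DS0

section Inj

variable {M : Type*} [AddCommGroup M] [Module.Free ℤ M]

/-- `m ↦ 1 ⊗ m : M → ℂ ⊗[ℤ] M` is injective for a free `ℤ`-module -/
theorem one_tmul_injective : Function.Injective (fun m : M => (1 : ℂ) ⊗ₜ[ℤ] m) := by
  have hinj : Function.Injective (Algebra.linearMap ℤ ℂ) := by
    intro a b hab
    exact Int.cast_injective hab
  have h := Module.Flat.rTensor_preserves_injective_linearMap (M := M) (Algebra.linearMap ℤ ℂ) hinj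
  intro m m' hmm
  have h1 : (Algebra.linearMap ℤ ℂ).rTensor M ((1 : ℤ) ⊗ₜ[ℤ] m) =
      (Algebra.linearMap ℤ ℂ).rTensor M ((1 : ℤ) ⊗ₜ[ℤ] m') := by
    simpa using hmm
  have h2 := h h1
  have h3 := congrArg (TensorProduct.lid ℤ M) h2
  simpa using h3

theorem baseChange_eq_zero_iff (T : Module.End ℤ M) : T.baseChange ℂ = 0 ↔ T = 0 := by
  constructor
  · intro h
    refine LinearMap.ext fun m => ?_
    apply one_tmul_injective
    show (1 : ℂ) ⊗ₜ[ℤ] T m = (1 : ℂ) ⊗ₜ[ℤ] (0 : Module.End ℤ M) m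
    rw [← LinearMap.baseChange_tmul, h, LinearMap.zero_apply, LinearMap.zero_apply,
      TensorProduct.tmul_zero]
  · rintro rfl
    exact LinearMap.baseChange_zero

end Inj

variable {A : Type*} [CommRing A] (𝔞 : Ideal A) [h𝔞 : 𝔞.IsMaximal] (p : ℕ)
  {M : Type*} [AddCommGroup M] [Module A M] [Module.Free ℤ M] [Module.Finite ℤ M]

/-- the action of `A` on `ℂ ⊗[ℤ] M` -/
noncomputable def rhoC : A →+* Module.End ℂ (ℂ ⊗[ℤ] M) :=
  (Module.End.baseChangeHom ℤ ℂ M).toRingHom.comp (Module.toModuleEnd ℤ (S := A) M)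

omit [Module.Free ℤ M] [Module.Finite ℤ M] in
@[simp] theorem rhoC_apply (r : A) :
    rhoC (M := M) r = (Module.toModuleEnd ℤ (S := A) M r).baseChange ℂ := rfl

omit [Module.Free ℤ M] [Module.Finite ℤ M] in
theorem rhoC_tmul (r : A) (c : ℂ) (m : M) : rhoC (M := M) r (c ⊗ₜ[ℤ] m) = c ⊗ₜ[ℤ] (r • m) := by
  rw [rhoC_apply, LinearMap.baseChange_tmul]
  rfl

omit [Module.Finite ℤ M] in
theorem mem_ker_rhoC_iff (r : A) : r ∈ RingHom.ker (rhoC (M := M)) ↔ ∀ m : M, r • m = 0 := by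
  rw [RingHom.mem_ker, rhoC_apply, baseChange_eq_zero_iff]
  constructor
  · intro h m
    exact LinearMap.congr_fun h m
  · intro h
    exact LinearMap.ext fun m => h m

/-- **[DS0]** -/
theorem exists_lift (y : M) (hy : ¬ ∃ z, y = (p : ℤ) • z)
    (hyeig : ∀ r ∈ 𝔞, ∃ z, r • y = (p : ℤ) • z) :
    ∃ (χ : A →+* ℂ) (𝔪' : Ideal (integralClosure ℤ ℂ)) (v : ℂ ⊗[ℤ] M), 𝔪'.IsMaximal ∧ v ≠ 0 ∧
      (∀ r : A, (Module.toModuleEnd ℤ (S := A) M r).baseChange ℂ v = χ r • v) ∧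
      ∀ r ∈ 𝔞, ∃ c : integralClosure ℤ ℂ, (c : ℂ) = χ r ∧ c ∈ 𝔪' := by
  classical
  set K : Ideal A := RingHom.ker (rhoC (M := M)) with hK
  -- `K ≤ 𝔞`
  have hK𝔞 : K ≤ 𝔞 := by
    intro k hk
    by_contra hk𝔞
    obtain ⟨s, r, hr, hsr⟩ := h𝔞.exists_inv hk𝔞
    have hk0 : ∀ m : M, k • m = 0 := (mem_ker_rhoC_iff k).1 hk
    obtain ⟨z, hz⟩ := hyeig r hr
    apply hy
    refine ⟨z, ?_⟩
    calc y = (1 : A) • y := (one_smul _ _).symm
      _ = (s * k + r) • y := by rw [hsr]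
      _ = s • k • y + r • y := by rw [add_smul, mul_smul]
      _ = (p : ℤ) • z := by rw [hk0, smul_zero, zero_add, hz]
  -- the image algebra
  let ρ' : (A ⧸ K) →+* Module.End ℂ (ℂ ⊗[ℤ] M) := RingHom.kerLift (rhoC (M := M))
  have hρ'inj : Function.Injective ρ' := RingHom.kerLift_injective _
  have hρ'mk : ∀ r : A, ρ' (Ideal.Quotient.mk K r) = rhoC (M := M) r := fun r =>
    RingHom.kerLift_mk _ r
  have hint : ∀ a : A ⧸ K, IsIntegral ℤ a := by
    intro a
    obtain ⟨r, rfl⟩ := Ideal.Quotient.mk_surjective a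
    have h1 : IsIntegral ℤ (Module.toModuleEnd ℤ (S := A) M r) :=
      Algebra.IsIntegral.isIntegral _
    have h2 : IsIntegral ℤ (rhoC (M := M) r) := h1.map (Module.End.baseChangeHom ℤ ℂ M)
    rw [← hρ'mk] at h2
    exact (isIntegral_algHom_iff ρ'.toIntAlgHom hρ'inj).1 h2
  -- the maximal ideal
  have hmax : (𝔞.map (Ideal.Quotient.mk K)).IsMaximal := by
    rcases Ideal.map_eq_top_or_isMaximal_of_surjective (Ideal.Quotient.mk K)
      Ideal.Quotient.mk_surjective h𝔞 with h | h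
    · exfalso
      have h1 : (𝔞.map (Ideal.Quotient.mk K)).comap (Ideal.Quotient.mk K) = 𝔞 := by
        rw [Ideal.comap_map_of_surjective _ Ideal.Quotient.mk_surjective]
        have : Ideal.comap (Ideal.Quotient.mk K) ⊥ = K := by
          rw [← RingHom.ker_eq_comap_bot, Ideal.mk_ker]
        rw [this]
        exact sup_eq_left.2 hK𝔞
      rw [h, Ideal.comap_top] at h1
      exact h𝔞.ne_top h1.symm
    · exact h
  have hker : RingHom.ker ρ' ≤ 𝔞.map (Ideal.Quotient.mk K) := by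
    intro a ha
    have : a = 0 := hρ'inj (by rw [map_zero]; exact ha)
    rw [this]
    exact Ideal.zero_mem _
  have := hmax
  obtain ⟨χ', v, 𝔪', hv0, hv, h𝔪', hχ'⟩ :=
    Fermat.Agent.S49.exists_eigencharacter_lift ρ' hint (𝔞.map (Ideal.Quotient.mk K)) hker
  refine ⟨χ'.comp (Ideal.Quotient.mk K), 𝔪', v, h𝔪', hv0, fun r => ?_, fun r hr => ?_⟩
  · have h1 := hv (Ideal.Quotient.mk K r)
    rw [hρ'mk, rhoC_apply] at h1
    exact h1
  · exact hχ' _ (Ideal.mem_map_of_mem _ hr)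

end Fermat.Agent.P3LR.DS0
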