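/-
P3-LR, block [DS1]: **from parabolic cohomology with `U_q² = 1` to a `q`-new normalized eigenform.**

A nonzero `w ∈ parHomAdd M ℂ` (level `M`, `q ∣ M`) with `T_ℓ w = b ℓ • w` for the primes `ℓ ∈ S`
(`ℓ ∤ M`) and `U_q (U_q w) = w` produces a normalized eigenform `g` of level `M` with
`a_ℓ(g) = b ℓ` (`ℓ ∈ S`) and `a_q(g) ^ 2 = 1`, i.e. `g.IsNewAt q`.

Proof: S21 (`periodHomPair` is injective with range the parabolic homomorphisms), Hecke- and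
`U_q`-equivariance of `periodHomPair` (`Tors/PeriodHecke`, `S16/Lower/USystem`), the common
eigenvector lemma of S49 on the subspace `{f | T_ℓ f = b ℓ f (ℓ ∈ S), U_q² f = f}` (stable under all
Hecke generators of level `M` since these commute), and S49's normalisation.  No trace map on cusp
forms is needed: `q`-newness is used only through `U_q² = 1`.
-/
import Mathlib
import Fermat.Agent.S16.Lower.USystem
import Fermat.Agent.P4S35.OccursOfEigenvector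
import Fermat.Agent.N4F.Tors.Outputs
import Fermat.Prelude.Def_FreyPackage_LevelRaising

set_option autoImplicit false

open CongruenceSubgroup ModularCurve ModularCurve.Period CuspForm ModularFormClass

noncomputable section

namespace Fermat.Agent.P3LR.DS1

open Fermat.Agent.N4F.Tors.HeckeHom Fermat.Agent.N4F.Tors.PeriodHecke Fermat.Agent.S49
  Fermat.Agent.S16.Lower.USystem Fermat.Agent.N4F.Tors.Outputs

variable (M : ℕ) [NeZero M]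

/-- the subspace of `S₂(Γ₀(M))` on which `T_ℓ = b ℓ` for `ℓ ∈ S` and `U_q² = 1` -/
def eigUSub (q : ℕ) (hqM : q ∣ M) (S : Set Nat.Primes) (hS : ∀ ℓ ∈ S, ¬ (ℓ : ℕ) ∣ M)
    (b : Nat.Primes → ℂ) : Submodule ℂ (CuspForm (Gamma0 M) 2) where
  carrier := {f | (∀ (ℓ : Nat.Primes) (hℓ : ℓ ∈ S), heckeTLin 2 ℓ.2 (hS ℓ hℓ) f = b ℓ • f) ∧
    heckeULin 2 hqM (heckeULin 2 hqM f) = f}
  zero_mem' := ⟨fun ℓ hℓ => by simp, by simp⟩
  add_mem' := by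
    rintro f g ⟨hf, hf'⟩ ⟨hg, hg'⟩
    refine ⟨fun ℓ hℓ => ?_, ?_⟩
    · rw [map_add, hf ℓ hℓ, hg ℓ hℓ, smul_add]
    · rw [map_add, map_add, hf', hg']
  smul_mem' := by
    rintro c f ⟨hf, hf'⟩
    refine ⟨fun ℓ hℓ => ?_, ?_⟩
    · rw [map_smul, hf ℓ hℓ, smul_comm]
    · rw [map_smul, map_smul, hf']

variable {M}

/-- the subspace is stable under all Hecke generators of level `M` -/
theorem mapsTo_eigUSub {q : ℕ} (hq : q.Prime) (hqM : q ∣ M) (S : Set Nat.Primes)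
    (hS : ∀ ℓ ∈ S, ¬ (ℓ : ℕ) ∣ M) (b : Nat.Primes → ℂ)
    {T : Module.End ℂ (CuspForm (Gamma0 M) 2)} (hT : T ∈ heckeGenerators M 2 (∅ : Set ℕ)) :
    Set.MapsTo T (eigUSub M q hqM S hS b) (eigUSub M q hqM S hS b) := by
  rintro f ⟨hf, hf'⟩
  refine ⟨fun ℓ hℓ => ?_, ?_⟩
  · have hc : Commute (heckeTLin 2 ℓ.2 (hS ℓ hℓ)) T :=
      commute_of_mem_heckeGenerators (S := (∅ : Set ℕ))
        (heckeTLin_mem_heckeGenerators ℓ.2 (hS ℓ hℓ) (Set.notMem_empty _)) hT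
    have h1 : heckeTLin 2 ℓ.2 (hS ℓ hℓ) (T f) = T (heckeTLin 2 ℓ.2 (hS ℓ hℓ) f) :=
      LinearMap.congr_fun hc.eq f
    rw [h1, hf ℓ hℓ, map_smul]
  · have hc : Commute (heckeULin 2 hqM) T :=
      commute_of_mem_heckeGenerators (S := (∅ : Set ℕ))
        (heckeULin_mem_heckeGenerators hq hqM (Set.notMem_empty _)) hT
    have h1 : ∀ x, heckeULin 2 hqM (T x) = T (heckeULin 2 hqM x) :=
      fun x => LinearMap.congr_fun hc.eq x
    rw [h1, h1, hf']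

/-- **A nonzero vector of the subspace gives a `q`-new normalized eigenform with the same
eigenvalues.** -/
theorem exists_isNormalizedEigenform_of_mem_eigUSub {q : ℕ} (hq : q.Prime) (hqM : q ∣ M)
    (S : Set Nat.Primes) (hS : ∀ ℓ ∈ S, ¬ (ℓ : ℕ) ∣ M) (b : Nat.Primes → ℂ)
    {f₀ : CuspForm (Gamma0 M) 2} (hf₀ : f₀ ∈ eigUSub M q hqM S hS b) (hf₀0 : f₀ ≠ 0) :
    ∃ g : CuspForm (Gamma0 M) 2, g.IsNormalizedEigenform ∧
      (∀ ℓ ∈ S, qCoeff g (ℓ : ℕ) = b ℓ) ∧ g.IsNewAt q := by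
  classical
  haveI : Module.Finite ℂ (CuspForm (Gamma0 M) 2) :=
    Fermat.Agent.M2.ES.S21Cond.finite_cuspForm_two M
  haveI : Nontrivial (eigUSub M q hqM S hS b) :=
    ⟨⟨⟨f₀, hf₀⟩, 0, fun h => hf₀0 (congrArg Subtype.val h)⟩⟩
  let E := eigUSub M q hqM S hS b
  let Sop : Set (Module.End ℂ E) :=
    {T' | ∃ (T : Module.End ℂ (CuspForm (Gamma0 M) 2))
      (hT : T ∈ heckeGenerators M 2 (∅ : Set ℕ)),
      T' = T.restrict (mapsTo_eigUSub hq hqM S hS b hT)}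
  have hSop : ∀ x ∈ Sop, ∀ y ∈ Sop, Commute x y := by
    rintro _ ⟨T, hT, rfl⟩ _ ⟨T', hT', rfl⟩
    refine LinearMap.ext fun v => Subtype.ext ?_
    exact LinearMap.congr_fun (commute_of_mem_heckeGenerators hT hT').eq
      (v : CuspForm (Gamma0 M) 2)
  obtain ⟨v, hv0, hv⟩ := exists_common_eigenvector Sop hSop
  have hv0' : (v : CuspForm (Gamma0 M) 2) ≠ 0 := fun h => hv0 (Subtype.ext h)
  have hTe : ∀ (ℓ : ℕ) (hℓ : ℓ.Prime) (hℓN : ¬ ℓ ∣ M),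
      ∃ c : ℂ, heckeTLin 2 hℓ hℓN (v : CuspForm (Gamma0 M) 2) =
        c • (v : CuspForm (Gamma0 M) 2) := by
    intro ℓ hℓ hℓN
    obtain ⟨c, hc⟩ := hv _ ⟨heckeTLin 2 hℓ hℓN,
      heckeTLin_mem_heckeGenerators hℓ hℓN (Set.notMem_empty ℓ), rfl⟩
    exact ⟨c, congrArg Subtype.val hc⟩
  have hUe : ∀ (r : ℕ) (_ : r.Prime) (hrN : r ∣ M),
      ∃ c : ℂ, heckeULin 2 hrN (v : CuspForm (Gamma0 M) 2) =
        c • (v : CuspForm (Gamma0 M) 2) := by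
    intro r hr hrN
    obtain ⟨c, hc⟩ := hv _ ⟨heckeULin 2 hrN,
      heckeULin_mem_heckeGenerators hr hrN (Set.notMem_empty r), rfl⟩
    exact ⟨c, congrArg Subtype.val hc⟩
  let lam : ℕ → ℂ := fun n =>
    if h : n.Prime ∧ ¬ n ∣ M then (hTe n h.1 h.2).choose
    else if h' : n.Prime ∧ n ∣ M then (hUe n h'.1 h'.2).choose else 0
  have hlamT : ∀ (ℓ : ℕ) (hℓ : ℓ.Prime) (hℓN : ¬ ℓ ∣ M),
      heckeTLin 2 hℓ hℓN (v : CuspForm (Gamma0 M) 2) =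
        lam ℓ • (v : CuspForm (Gamma0 M) 2) := by
    intro ℓ hℓ hℓN
    have h : ℓ.Prime ∧ ¬ ℓ ∣ M := ⟨hℓ, hℓN⟩
    simp only [lam, dif_pos h]
    exact (hTe ℓ hℓ hℓN).choose_spec
  have hlamU : ∀ (r : ℕ) (hr : r.Prime) (hrN : r ∣ M),
      heckeULin 2 hrN (v : CuspForm (Gamma0 M) 2) =
        lam r • (v : CuspForm (Gamma0 M) 2) := by
    intro r hr hrN
    have h : ¬ (r.Prime ∧ ¬ r ∣ M) := fun h => h.2 hrN
    have h' : r.Prime ∧ r ∣ M := ⟨hr, hrN⟩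
    simp only [lam, dif_neg h, dif_pos h']
    exact (hUe r hr hrN).choose_spec
  obtain ⟨g, hg, hgq⟩ := exists_isNormalizedEigenform_of_eigenvector
    (v : CuspForm (Gamma0 M) 2) hv0' lam hlamT hlamU
  refine ⟨g, hg, fun ℓ hℓ => ?_, ?_⟩
  · rw [hgq (ℓ : ℕ) ℓ.2]
    have h1 := hlamT (ℓ : ℕ) ℓ.2 (hS ℓ hℓ)
    rw [v.2.1 ℓ hℓ] at h1
    exact (smul_left_injective ℂ hv0' h1).symm
  · show qCoeff g q ^ 2 = 1
    rw [hgq q hq]
    have h1 := v.2.2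
    rw [hlamU q hq hqM, map_smul, hlamU q hq hqM, smul_smul] at h1
    have h2 : (lam q * lam q) • (v : CuspForm (Gamma0 M) 2) =
        (1 : ℂ) • (v : CuspForm (Gamma0 M) 2) := by rw [h1, one_smul]
    rw [sq]
    exact smul_left_injective ℂ hv0' h2

/-- **[DS1].**  A nonzero `w ∈ parHomAdd M ℂ` with `T_ℓ w = b ℓ • w` (`ℓ ∈ S`) and
`U_q (U_q w) = w` yields a normalized eigenform `g` of level `M` with `a_ℓ(g) = b ℓ` for `ℓ ∈ S`
and `g.IsNewAt q` (`a_q(g) ^ 2 = 1`). -/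
theorem exists_eigenform_of_eigenvector (M q : ℕ) [NeZero M] [Fact q.Prime] (hqM : q ∣ M)
    (S : Set Nat.Primes) (hS : ∀ ℓ ∈ S, ¬ (ℓ : ℕ) ∣ M) (b : Nat.Primes → ℂ)
    (w : Additive ↥(CongruenceSubgroup.Gamma0 M) →+ ℂ) (hw : w ∈ parHomAdd M ℂ) (hw0 : w ≠ 0)
    (heig : ∀ ℓ (hℓ : ℓ ∈ S), heckeAddP M ℓ (hS ℓ hℓ) w = b ℓ • w)
    (hU : uAdd M q hqM (uAdd M q hqM w) = w) :
    ∃ g : CuspForm (CongruenceSubgroup.Gamma0 M) 2, g.IsNormalizedEigenform ∧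
      (∀ ℓ ∈ S, ModularFormClass.qCoeff g ℓ = b ℓ) ∧ g.IsNewAt q := by
  have hq : q.Prime := Fact.out
  obtain ⟨hinj, hrange⟩ := Fermat.Agent.S21.result M
  have hw' : w ∈ parabolicHoms ℂ (Gamma0 M) ℂ := fun γ hγ => hw γ (Or.inl hγ)
  rw [← hrange] at hw'
  obtain ⟨⟨f₁, f₂⟩, rfl⟩ := hw'
  have hmem : f₁ ∈ eigUSub M q hqM S hS b ∧ f₂ ∈ eigUSub M q hqM S hS b := by
    have key : ∀ (ℓ : Nat.Primes) (hℓ : ℓ ∈ S),
        (heckeTLin 2 ℓ.2 (hS ℓ hℓ) f₁, heckeTLin 2 ℓ.2 (hS ℓ hℓ) f₂) = (b ℓ • f₁, b ℓ • f₂) := by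
      intro ℓ hℓ
      haveI : Fact (ℓ : ℕ).Prime := ⟨ℓ.2⟩
      apply hinj
      have h1 := heig ℓ hℓ
      rw [← heckeAdd_periodHomPair M ℓ.2 (hS ℓ hℓ), ← Prod.smul_mk, map_smul]
      exact h1
    have keyU : (heckeULin 2 hqM (heckeULin 2 hqM f₁), heckeULin 2 hqM (heckeULin 2 hqM f₂)) =
        (f₁, f₂) := by
      apply hinj
      rw [← uAdd_periodHomPair M hq hqM, ← uAdd_periodHomPair M hq hqM]
      exact hU
    exact ⟨⟨fun ℓ hℓ => (Prod.ext_iff.1 (key ℓ hℓ)).1, (Prod.ext_iff.1 keyU).1⟩,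
      ⟨fun ℓ hℓ => (Prod.ext_iff.1 (key ℓ hℓ)).2, (Prod.ext_iff.1 keyU).2⟩⟩
  by_cases h1 : f₁ = 0
  · have h2 : f₂ ≠ 0 := by
      rintro rfl
      apply hw0
      rw [h1]
      exact map_zero _
    exact exists_isNormalizedEigenform_of_mem_eigUSub hq hqM S hS b hmem.2 h2
  · exact exists_isNormalizedEigenform_of_mem_eigUSub hq hqM S hS b hmem.1 h1

end Fermat.Agent.P3LR.DS1
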