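/-
P3-LR, the `hinj` heart of the assembly: **a lattice vector `x ∈ Λ_N = parHomAdd N ℤ` whose
reduction mod `p` is a congruence homomorphism (trivial on `Γ₀(N) ∩ Γ(m)`) and which is a
`T_ℓ`-eigenvector mod `p` with the eigenvalues `a_ℓ(W)` of a non-Eisenstein system is divisible
by `p`.**

Proof: `x̄ := x mod p` is killed by `Γ₀(N) ∩ Γ(m)`, hence Eisenstein (`(IH3)`,
`EisensteinCongruence.heckeAdd_eq_of_congruence`): `T_ℓ x̄ = (ℓ + 1) x̄` for `ℓ ≡ 1 (mod m)`;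
`(NE)` produces such an `ℓ` (good, `ℓ ∤ N`, `ℓ ∉ T`, `ℓ ≠ p`) with `a_ℓ(W) ≢ ℓ + 1 (mod p)`;
the eigen-equation gives `T_ℓ x̄ = a_ℓ x̄`, so `x̄ = 0`, and `redPar_eq_zero` concludes.
-/
import Mathlib
import Fermat.Agent.P3LR.A.EisensteinCongruence
import Fermat.Agent.S41.NE.Shape
import Fermat.Agent.N4F.Tors.Outputs

set_option autoImplicit false

open CongruenceSubgroup
open scoped MatrixGroups

namespace Fermat.Agent.P3LR.HInj

open Fermat.Agent.N4F.Tors.HeckeHom Fermat.Agent.N4F.Tors.Outputs Fermat.Agent.S41.NE.Shape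
  Fermat.Agent.P3LR.A.EisensteinCongruence

/-- **`hinj` heart.** -/
theorem eq_smul_of_congruence {W : WeierstrassCurve ℤ} {p N : ℕ} [NeZero N] (hp : p.Prime)
    (hNE : NotEisenstein W p) (T : Finset ℕ) (x : parHomAdd N ℤ) (m : ℕ) (hm : 0 < m)
    (hx : ∀ g : ↥(Gamma0 N), (g : Matrix.SpecialLinearGroup (Fin 2) ℤ) ∈ Gamma m →
      (p : ℤ) ∣ x.1 (Additive.ofMul g))
    (heig : ∀ (ℓ : Nat.Primes) (hℓN : ¬ (ℓ : ℕ) ∣ N), W.IsGoodPrimeFor ℓ → (ℓ : ℕ) ∉ T →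
      (ℓ : ℕ) ≠ p →
      ∃ z, heckeLattice N ℓ hℓN x - (W.apOfModel ℓ) • x = (p : ℤ) • z) :
    ∃ z : parHomAdd N ℤ, x = (p : ℤ) • z := by
  haveI : Fact p.Prime := ⟨hp⟩
  have hN0 : N ≠ 0 := NeZero.ne N
  -- the non-Eisenstein prime
  obtain ⟨ℓ, hℓ, hgood, hℓT, hℓp, hℓm, hndvd⟩ := hNE m hm (T ∪ N.primeFactors)
  have hℓT' : ℓ ∉ T := fun h => hℓT (Finset.mem_union_left _ h)
  have hℓN : ¬ ℓ ∣ N := fun h =>
    hℓT (Finset.mem_union_right _ (Nat.mem_primeFactors.2 ⟨hℓ, h, hN0⟩))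
  haveI : Fact ℓ.Prime := ⟨hℓ⟩
  -- the reduction of `x` mod `p`
  set xb : Additive ↥(Gamma0 N) →+ ZMod p := (Int.castAddHom (ZMod p)).comp x.1 with hxb
  have hxb_apply : ∀ g, xb g = ((x.1 g : ℤ) : ZMod p) := fun _ => rfl
  -- it is a congruence homomorphism, hence Eisenstein at `ℓ`
  have hcong : ∀ g : ↥(Gamma0 N), (g : SL(2, ℤ)) ∈ Gamma m → xb (Additive.ofMul g) = 0 := by
    intro g hg
    rw [hxb_apply]
    exact (ZMod.intCast_zmod_eq_zero_iff_dvd _ p).2 (hx g hg)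
  have hE : heckeAdd N ℓ hℓN xb = (ℓ + 1) • xb :=
    heckeAdd_eq_of_congruence N ℓ hℓN m hℓm xb hcong
  -- the eigen-equation mod `p`
  obtain ⟨z, hz⟩ := heig ⟨ℓ, hℓ⟩ hℓN hgood hℓT' hℓp
  have hz1 : heckeAddP N ⟨ℓ, hℓ⟩ hℓN x.1 - (W.apOfModel ℓ) • x.1 = (p : ℤ) • z.1 := by
    have := congrArg (fun y : parHomAdd N ℤ => (y : Additive ↥(Gamma0 N) →+ ℤ)) hz
    simpa using this
  have hT : heckeAdd N ℓ hℓN xb = ((W.apOfModel ℓ : ℤ) : ZMod p) • xb := by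
    have h1 : heckeAdd N ℓ hℓN xb = (Int.castAddHom (ZMod p)).comp (heckeAdd N ℓ hℓN x.1) :=
      heckeAdd_comp N ℓ hℓN (Int.castAddHom (ZMod p)) x.1
    rw [h1]
    refine AddMonoidHom.ext fun g => ?_
    have h2 := congrArg (fun φ : Additive ↥(Gamma0 N) →+ ℤ => φ g) hz1
    simp only [AddMonoidHom.sub_apply, AddMonoidHom.smul_apply, smul_eq_mul] at h2
    have h3 : heckeAdd N ℓ hℓN x.1 g = W.apOfModel ℓ * x.1 g + (p : ℤ) * z.1 g := by
      have : heckeAddP N ⟨ℓ, hℓ⟩ hℓN x.1 g = heckeAdd N ℓ hℓN x.1 g := rfl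
      rw [← this]
      linarith
    rw [AddMonoidHom.comp_apply, h3, AddMonoidHom.smul_apply, hxb_apply]
    simp
  -- conclude `xb = 0`
  have hc : (((ℓ : ℤ) + 1 - W.apOfModel ℓ : ℤ) : ZMod p) ≠ 0 := by
    intro h
    exact hndvd ((ZMod.intCast_zmod_eq_zero_iff_dvd _ p).1 h)
  have hxb0 : xb = 0 := by
    refine AddMonoidHom.ext fun g => ?_
    have h1 := congrArg (fun φ : Additive ↥(Gamma0 N) →+ ZMod p => φ g) (hE.symm.trans hT)
    simp only [AddMonoidHom.smul_apply, smul_eq_mul, nsmul_eq_mul] at h1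
    have h2 : (((ℓ : ℤ) + 1 - W.apOfModel ℓ : ℤ) : ZMod p) * xb g = 0 := by
      push_cast
      push_cast at h1
      linear_combination h1
    rcases mul_eq_zero.1 h2 with h | h
    · exact absurd h hc
    · simpa using h
  apply redPar_eq_zero N p hp x
  apply Subtype.ext
  exact hxb0

end Fermat.Agent.P3LR.HInj
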