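/-
P3-LR / S41, leaf (L2) of the Assembly (helper4 #2041): TRANSPORT FROM `ℂ ⊗ (sublattice of Λ_M)` TO
`Hom(Γ₀(M), ℂ)`.

`M₀` a `ℤ`-submodule of the lattice `Λ_M = parHomAdd M ℤ` (e.g. `ker i†`).  The comparison map
`JJ M M₀ : ℂ ⊗[ℤ] M₀ →ₗ[ℂ] (Additive Γ₀(M) →+ ℂ)`, `c ⊗ ψ ↦ c • (cast ∘ ψ)`, lands in
`parHomAdd M ℂ` (`JJ_mem`), is injective (`JJ_injective`: `ℂ` is flat over `ℤ`, then
`HomLattice.J_injective`), intertwines every endomorphism of `M₀` which is the restriction of a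
Hecke operator of the lattice with `heckeAddP` (`JJ_hecke`), and every natural family of additive
maps `Hom(Γ₀(M), A) → Hom(Γ₀(N'), A)` which kills `M₀` kills the image of `JJ`
(`JJ_natural_eq_zero`).  More generally `JJ_natural` transports any natural family.
-/
import Mathlib
import Fermat.Agent.N4F.Tors.Outputs

set_option autoImplicit false

open CongruenceSubgroup
open scoped TensorProduct MatrixGroups

noncomputable section

namespace Fermat.Agent.P3LR.LatticeC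

open Fermat.Agent.N4F.Tors.HeckeHom Fermat.Agent.N4F.Tors.HomLattice
  Fermat.Agent.N4F.Tors.Outputs

variable (M : ℕ) (M₀ : Submodule ℤ (parHomAdd M ℤ))

/-- the `ℤ`-linear map `M₀ → Hom(Γ₀(M), ℂ)`, `ψ ↦ cast ∘ ψ` -/
def castSub : M₀ →ₗ[ℤ] (Additive ↥(Gamma0 M) →+ ℂ) :=
  ((castHom (X := Additive ↥(Gamma0 M)) ℂ).comp
    (parHomAdd M ℤ).subtype.toIntLinearMap).comp M₀.subtype

@[simp]
theorem castSub_apply (ψ : M₀) :
    castSub M M₀ ψ = (Int.castAddHom ℂ).comp (ψ : parHomAdd M ℤ).1 := rfl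

/-- `c ⊗ ψ ↦ c • (cast ∘ ψ)` -/
def JJ : (ℂ ⊗[ℤ] M₀) →ₗ[ℂ] (Additive ↥(Gamma0 M) →+ ℂ) :=
  LinearMap.liftBaseChange ℂ (castSub M M₀)

theorem JJ_tmul (c : ℂ) (ψ : M₀) :
    JJ M M₀ (c ⊗ₜ[ℤ] ψ) = c • (Int.castAddHom ℂ).comp (ψ : parHomAdd M ℤ).1 := by
  rw [JJ, LinearMap.liftBaseChange_tmul, castSub_apply]

theorem JJ_tmul_apply (c : ℂ) (ψ : M₀) (g : Additive ↥(Gamma0 M)) :
    JJ M M₀ (c ⊗ₜ[ℤ] ψ) g = c * (((ψ : parHomAdd M ℤ).1 g : ℤ) : ℂ) := by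
  rw [JJ_tmul]
  rfl

/-- scalar multiplication on `Hom(Γ₀(M), ℂ)` is post-composition -/
theorem smul_eq_comp {X : Type*} [AddGroup X] (c : ℂ) (φ : X →+ ℂ) :
    c • φ = (DistribSMul.toAddMonoidHom ℂ c).comp φ := rfl

theorem JJ_mem (v : ℂ ⊗[ℤ] M₀) : JJ M M₀ v ∈ parHomAdd M ℂ := by
  induction v with
  | zero => rw [map_zero]; exact (parHomAdd M ℂ).zero_mem
  | tmul c ψ =>
    intro g hg
    rw [JJ_tmul_apply, (ψ : parHomAdd M ℤ).2 g hg, Int.cast_zero, mul_zero]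
  | add y z hy hz => rw [map_add]; exact (parHomAdd M ℂ).add_mem hy hz

/-- `JJ` factors through `HomLattice.J` -/
theorem JJ_eq_J [NeZero M] (v : ℂ ⊗[ℤ] M₀) :
    JJ M M₀ v = J ℂ (parSet M)
      (((toKilling M).toLinearMap.comp M₀.subtype).lTensor ℂ v) := by
  induction v with
  | zero => simp
  | tmul c ψ =>
    refine DFunLike.ext _ _ fun g => ?_
    rw [JJ_tmul_apply, LinearMap.lTensor_tmul, J_tmul_apply]
    rfl
  | add y z hy hz => rw [map_add, map_add, map_add, hy, hz]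

theorem JJ_injective [NeZero M] : Function.Injective (JJ M M₀) := by
  have h1 : Function.Injective ((toKilling M).toLinearMap.comp M₀.subtype) :=
    (toKilling M).injective.comp Subtype.val_injective
  have h2 : Function.Injective (((toKilling M).toLinearMap.comp M₀.subtype).lTensor ℂ) :=
    Module.Flat.lTensor_preserves_injective_linearMap _ h1
  intro y z hyz
  rw [JJ_eq_J, JJ_eq_J] at hyz
  exact h2 (J_injective (X := Additive ↥(Gamma0 M)) (S := parSet M) ℂ hyz)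

/-- `JJ` intertwines an endomorphism of `M₀` which is the restriction of `T_ℓ` with `T_ℓ`. -/
theorem JJ_hecke (ℓ : Nat.Primes) (hℓ : ¬ (ℓ : ℕ) ∣ M) (T₀ : Module.End ℤ M₀)
    (hT₀ : ∀ ψ : M₀, ((T₀ ψ : M₀) : parHomAdd M ℤ) = heckeLattice M ℓ hℓ (ψ : parHomAdd M ℤ))
    (v : ℂ ⊗[ℤ] M₀) :
    JJ M M₀ (T₀.baseChange ℂ v) = heckeAddP M ℓ hℓ (JJ M M₀ v) := by
  induction v with
  | zero => simp
  | tmul c ψ =>
    rw [LinearMap.baseChange_tmul, JJ_tmul, JJ_tmul, hT₀ ψ, coe_heckeLattice,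
      smul_eq_comp, smul_eq_comp, heckeAddP_comp, heckeAddP_comp]
  | add y z hy hz => rw [map_add, map_add, hy, hz, map_add, map_add]

/-- transport of a natural family of additive maps `Hom(Γ₀(M), A) → Hom(Γ₀(N'), A)`: if an
endomorphism... (general form): `F ℂ (JJ v)` is computed tensor-wise. -/
theorem JJ_natural_tmul {N' : ℕ}
    (F : ∀ (A : Type) [AddCommGroup A],
      (Additive ↥(Gamma0 M) →+ A) →+ (Additive ↥(Gamma0 N') →+ A))
    (hF : ∀ (A B : Type) [AddCommGroup A] [AddCommGroup B] (f : A →+ B)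
      (φ : Additive ↥(Gamma0 M) →+ A), F B (f.comp φ) = f.comp (F A φ))
    (c : ℂ) (ψ : M₀) :
    F ℂ (JJ M M₀ (c ⊗ₜ[ℤ] ψ)) =
      c • (Int.castAddHom ℂ).comp (F ℤ (ψ : parHomAdd M ℤ).1) := by
  rw [JJ_tmul, smul_eq_comp, smul_eq_comp, hF ℂ ℂ, hF ℤ ℂ]

/-- a natural family which kills `M₀` kills the image of `JJ` -/
theorem JJ_natural_eq_zero {N' : ℕ}
    (F : ∀ (A : Type) [AddCommGroup A],
      (Additive ↥(Gamma0 M) →+ A) →+ (Additive ↥(Gamma0 N') →+ A))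
    (hF : ∀ (A B : Type) [AddCommGroup A] [AddCommGroup B] (f : A →+ B)
      (φ : Additive ↥(Gamma0 M) →+ A), F B (f.comp φ) = f.comp (F A φ))
    (h0 : ∀ ψ : M₀, F ℤ (ψ : parHomAdd M ℤ).1 = 0) (v : ℂ ⊗[ℤ] M₀) :
    F ℂ (JJ M M₀ v) = 0 := by
  induction v with
  | zero => rw [map_zero, map_zero]
  | tmul c ψ =>
    rw [JJ_natural_tmul M M₀ F hF, h0 ψ, AddMonoidHom.comp_zero, smul_zero]
  | add y z hy hz => rw [map_add, map_add, hy, hz, add_zero]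

/-- a natural family of ENDOmorphisms of `Hom(Γ₀(M), A)` which preserves `M₀` (through an
endomorphism `T₀`) is intertwined by `JJ` (e.g. `uAdd`, `wAdd`, `heckeAdd`). -/
theorem JJ_natural_end
    (F : ∀ (A : Type) [AddCommGroup A],
      (Additive ↥(Gamma0 M) →+ A) →+ (Additive ↥(Gamma0 M) →+ A))
    (hF : ∀ (A B : Type) [AddCommGroup A] [AddCommGroup B] (f : A →+ B)
      (φ : Additive ↥(Gamma0 M) →+ A), F B (f.comp φ) = f.comp (F A φ))
    (T₀ : Module.End ℤ M₀)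
    (hT₀ : ∀ ψ : M₀, ((T₀ ψ : M₀) : parHomAdd M ℤ).1 = F ℤ (ψ : parHomAdd M ℤ).1)
    (v : ℂ ⊗[ℤ] M₀) :
    JJ M M₀ (T₀.baseChange ℂ v) = F ℂ (JJ M M₀ v) := by
  induction v with
  | zero => simp
  | tmul c ψ =>
    rw [LinearMap.baseChange_tmul, JJ_natural_tmul M M₀ F hF, JJ_tmul, hT₀ ψ]
  | add y z hy hz => rw [map_add, map_add, hy, hz, map_add, map_add]

end Fermat.Agent.P3LR.LatticeC
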