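/-
P3-LR, block [OCC]: from the hypotheses of S41 (a normalised eigenform `f` of level `N` congruent
to `W` modulo `𝔪 ∣ p`, with `a_{q'}(f)² ≡ (q'+1)²`), an INTEGRAL parabolic class
`v ∈ Λ_N = parHomAdd N ℤ`, `v ∉ pΛ_N`, which is an eigenvector modulo `p` of the `T_ℓ` (`ℓ` good,
`ℓ ∤ N`, `ℓ ≠ p`) with eigenvalues `a_ℓ(W)`, and of `T_{q'}` with eigenvalue `ε (q'+1)`, `ε = ±1`.
(`latticeOccurs` of `N4F/Tors/OutputsFinal` + descent from `𝔽 = Z̄/𝔪` to the prime field.)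
-/
import Mathlib
import Fermat.Agent.N4F.Tors.OutputsFinal
import Fermat.Agent.N4F.Tors.Transport
import Fermat.Prelude.Def_FreyPackage_LevelRaising

set_option autoImplicit false

open CongruenceSubgroup
open scoped TensorProduct

noncomputable section

namespace Fermat.Agent.P3LR.Occ

/-! ### Generic descent of an eigenvector from `𝔽 ⊗ Λ` to `Λ / pΛ` -/

section Descent

variable (p : ℕ) [Fact p.Prime] {𝔽 : Type*} [Field 𝔽] [Algebra (ZMod p) 𝔽]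
  {Λ : Type*} [AddCommGroup Λ] [Module.Free ℤ Λ] [Module.Finite ℤ Λ]

omit [Module.Free ℤ Λ] [Module.Finite ℤ Λ] in
/-- every element of `𝔽 ⊗ Λ` is `∑ c_j ⊗ b_j` for a basis `b` of `Λ` -/
theorem exists_coeffs {ι : Type*} [Fintype ι] (b : Module.Basis ι ℤ Λ) (x : 𝔽 ⊗[ℤ] Λ) :
    ∃ c : ι → 𝔽, x = ∑ j, c j ⊗ₜ[ℤ] b j := by
  induction x with
  | zero => exact ⟨0, by simp⟩
  | tmul a m =>
    refine ⟨fun j => (b.repr m j) • a, ?_⟩
    conv_lhs => rw [← b.sum_repr m, TensorProduct.tmul_sum]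
    refine Finset.sum_congr rfl fun j _ => ?_
    rw [TensorProduct.tmul_smul, TensorProduct.smul_tmul']
  | add x y hx hy =>
    obtain ⟨c, rfl⟩ := hx
    obtain ⟨d, rfl⟩ := hy
    refine ⟨c + d, ?_⟩
    rw [← Finset.sum_add_distrib]
    refine Finset.sum_congr rfl fun j _ => ?_
    rw [Pi.add_apply, TensorProduct.add_tmul]

/-- the `j₀`-th coordinate `ZMod p ⊗ Λ → ZMod p` -/
def coordZ {ι : Type*} (b : Module.Basis ι ℤ Λ) (j₀ : ι) : (ZMod p ⊗[ℤ] Λ) →+ ZMod p :=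
  ((TensorProduct.rid ℤ (ZMod p)).toLinearMap.comp
    ((b.coord j₀).lTensor (ZMod p))).toAddMonoidHom

omit [Module.Free ℤ Λ] [Module.Finite ℤ Λ] in
theorem coordZ_tmul {ι : Type*} (b : Module.Basis ι ℤ Λ) (j₀ : ι) (a : ZMod p) (m : Λ) :
    coordZ p b j₀ (a ⊗ₜ[ℤ] m) = (b.repr m j₀) • a := by
  show (TensorProduct.rid ℤ (ZMod p)) ((b.coord j₀).lTensor (ZMod p) (a ⊗ₜ[ℤ] m)) = _
  rw [LinearMap.lTensor_tmul]
  exact TensorProduct.rid_tmul _ _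

/-- **descent**: a nonzero `v₀ ∈ 𝔽 ⊗ Λ` gives `v ∈ Λ ∖ pΛ` inheriting every eigen-equation with an
INTEGER eigenvalue -/
theorem exists_descent (v₀ : 𝔽 ⊗[ℤ] Λ) (hv₀ : v₀ ≠ 0) :
    ∃ v : Λ, (¬ ∃ z, v = (p : ℤ) • z) ∧
      ∀ (T : Module.End ℤ Λ) (n : ℤ), T.baseChange 𝔽 v₀ = (n : 𝔽) • v₀ →
        ∃ z, T v - n • v = (p : ℤ) • z := by
  classical
  let ι := Module.Free.ChooseBasisIndex ℤ Λ
  let b : Module.Basis ι ℤ Λ := Module.Free.chooseBasis ℤ Λ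
  obtain ⟨c, hc⟩ := exists_coeffs (𝔽 := 𝔽) b v₀
  -- some coefficient is nonzero
  have hex : ∃ j₀, c j₀ ≠ 0 := by
    by_contra hcon
    push Not at hcon
    apply hv₀
    rw [hc]
    exact Finset.sum_eq_zero fun j _ => by rw [hcon j, TensorProduct.zero_tmul]
  obtain ⟨j₀, hj₀⟩ := hex
  -- a functional not vanishing there
  obtain ⟨lam, hlam⟩ : ∃ lam : Module.Dual (ZMod p) 𝔽, lam (c j₀) ≠ 0 := by
    by_contra hcon
    push Not at hcon
    exact hj₀ ((Module.forall_dual_apply_eq_zero_iff (ZMod p) (c j₀)).1 hcon)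
  let lamZ : 𝔽 →ₗ[ℤ] ZMod p := lam.toAddMonoidHom.toIntLinearMap
  have hlamZ : ∀ x, lamZ x = lam x := fun _ => rfl
  set w : ZMod p ⊗[ℤ] Λ := lamZ.rTensor Λ v₀ with hw
  have hw0 : w ≠ 0 := by
    intro h0
    apply hlam
    have h1 : coordZ p b j₀ w = lam (c j₀) := by
      rw [hw, hc, map_sum, map_sum]
      rw [Finset.sum_eq_single j₀]
      · rw [LinearMap.rTensor_tmul, coordZ_tmul, hlamZ, Module.Basis.repr_self,
          Finsupp.single_eq_same, one_smul]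
      · intro j _ hj
        rw [LinearMap.rTensor_tmul, coordZ_tmul, Module.Basis.repr_self,
          Finsupp.single_eq_of_ne hj.symm, zero_smul]
      · intro h; exact absurd (Finset.mem_univ j₀) h
    rw [← h1, h0, map_zero]
  obtain ⟨v, hv⟩ := Fermat.Agent.N4F.Tors.Transport.exists_eq_one_tmul p w
  have hkey : ∀ m : Λ, (1 : ZMod p) ⊗ₜ[ℤ] m = 0 → ∃ z, m = (p : ℤ) • z := by
    intro m hm
    have h1 := congrArg (fun x => fun j => coordZ p b j x) hm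
    simp only [coordZ_tmul, map_zero] at h1
    have h2 : ∀ j, (p : ℤ) ∣ b.repr m j := by
      intro j
      have := congrFun h1 j
      rw [zsmul_eq_mul, mul_one] at this
      exact (ZMod.intCast_zmod_eq_zero_iff_dvd _ p).1 this
    refine ⟨∑ j, (b.repr m j / (p : ℤ)) • b j, ?_⟩
    conv_lhs => rw [← b.sum_repr m]
    rw [Finset.smul_sum]
    refine Finset.sum_congr rfl fun j _ => ?_
    rw [smul_smul, Int.mul_ediv_cancel' (h2 j)]
  refine ⟨v, ?_, ?_⟩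
  · rintro ⟨z, rfl⟩
    apply hw0
    rw [hv, TensorProduct.tmul_smul, TensorProduct.smul_tmul', zsmul_eq_mul, mul_one]
    simp
  · intro T n hT
    apply hkey
    have h1 : lamZ.rTensor Λ (T.baseChange 𝔽 v₀) = T.baseChange (ZMod p) w := by
      rw [hw]
      have : ∀ x : 𝔽 ⊗[ℤ] Λ, lamZ.rTensor Λ (T.baseChange 𝔽 x) =
          T.baseChange (ZMod p) (lamZ.rTensor Λ x) := by
        intro x
        induction x with
        | zero => simp
        | tmul a m => simp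
        | add x y hx hy => rw [map_add, map_add, hx, hy, map_add, map_add]
      exact this v₀
    rw [hT, Int.cast_smul_eq_zsmul, map_zsmul, ← hw, hv, LinearMap.baseChange_tmul] at h1
    rw [TensorProduct.tmul_sub, TensorProduct.tmul_smul, ← h1, sub_self]

end Descent

/-! ### The application to S41 -/

section Application

open Fermat.Agent.N4F.Tors.HeckeHom Fermat.Agent.N4F.Tors.HomLattice
  Fermat.Agent.N4F.Tors.Outputs Fermat.Agent.N4F.Tors.OutputsFinal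

variable (N : ℕ) [NeZero N]

/-- `Λ_N = parHomAdd N ℤ` is a free `ℤ`-module -/
theorem free_parHomAdd : Module.Free ℤ (parHomAdd N ℤ) :=
  Module.Free.of_equiv (toKilling N).symm

/-- `Λ_N = parHomAdd N ℤ` is a finite `ℤ`-module -/
theorem finite_parHomAdd : Module.Finite ℤ (parHomAdd N ℤ) :=
  Module.Finite.equiv (toKilling N).symm

/-- **[OCC]** the eigensystem of `f` modulo `𝔪` occurs in `Λ_N / p Λ_N`, with integer
eigenvalues `a_ℓ(W)` at the good primes and `ε (q'+1)`, `ε = ±1`, at `q'`. -/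
theorem exists_lattice_eigenvector {W : WeierstrassCurve ℤ} {p q' : ℕ} (hp : p.Prime)
    (hq' : q'.Prime) (hq'N : ¬ q' ∣ N)
    (f : CuspForm (Gamma0 N) 2) (𝔪 : Ideal (integralClosure ℤ ℂ))
    (hf : f.IsNormalizedEigenform) (hmax : 𝔪.IsMaximal) (hpm : (p : integralClosure ℤ ℂ) ∈ 𝔪)
    (hcong : ∀ ℓ : ℕ, ℓ.Prime → W.IsGoodPrimeFor ℓ → ¬ ℓ ∣ N → ℓ ≠ p →
      ∃ a : integralClosure ℤ ℂ, (a : ℂ) = ModularFormClass.qCoeff f ℓ ∧
        a - ((W.apOfModel ℓ : ℤ) : integralClosure ℤ ℂ) ∈ 𝔪)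
    (hLR : ∃ a : integralClosure ℤ ℂ, (a : ℂ) = ModularFormClass.qCoeff f q' ∧
      a ^ 2 - ((q' : integralClosure ℤ ℂ) + 1) ^ 2 ∈ 𝔪) :
    ∃ (ε : ℤ) (v : parHomAdd N ℤ), (ε = 1 ∨ ε = -1) ∧ (¬ ∃ z, v = (p : ℤ) • z) ∧
      (∀ (ℓ : Nat.Primes) (hℓN : ¬ (ℓ : ℕ) ∣ N), W.IsGoodPrimeFor ℓ → (ℓ : ℕ) ≠ p →
        ∃ z, heckeLattice N ℓ hℓN v - (W.apOfModel ℓ) • v = (p : ℤ) • z) ∧
      ∃ z, heckeLattice N ⟨q', hq'⟩ hq'N v - (ε * ((q' : ℤ) + 1)) • v = (p : ℤ) • z := by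
  classical
  have : Fact p.Prime := ⟨hp⟩
  let _ : Field (integralClosure ℤ ℂ ⧸ 𝔪) := Ideal.Quotient.field 𝔪
  have hp0 : ((p : ℕ) : integralClosure ℤ ℂ ⧸ 𝔪) = 0 := by
    have : (Ideal.Quotient.mk 𝔪) ((p : ℕ) : integralClosure ℤ ℂ) = 0 :=
      Ideal.Quotient.eq_zero_iff_mem.mpr hpm
    rwa [map_natCast] at this
  have hchar : CharP (integralClosure ℤ ℂ ⧸ 𝔪) p := (CharP.charP_iff_prime_eq_zero hp).mpr hp0
  let _ : Algebra (ZMod p) (integralClosure ℤ ℂ ⧸ 𝔪) := ZMod.algebra _ p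
  set φ : integralClosure ℤ ℂ →+* integralClosure ℤ ℂ ⧸ 𝔪 := Ideal.Quotient.mk 𝔪 with hφ
  obtain ⟨a, ha, hocc⟩ := latticeOccurs N hf
  obtain ⟨v₀, hv₀, heig⟩ := hocc p _ φ
  have hfree := free_parHomAdd N
  have hfin := finite_parHomAdd N
  obtain ⟨v, hv, hdesc⟩ := exists_descent p v₀ hv₀
  -- the sign
  obtain ⟨aq, haq, hLRm⟩ := hLR
  have haq' : a ⟨q', hq'⟩ = aq := Subtype.ext (by rw [ha ⟨q', hq'⟩ hq'N, haq])
  have hsq : (φ aq - ((q' : integralClosure ℤ ℂ ⧸ 𝔪) + 1)) *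
      (φ aq + ((q' : integralClosure ℤ ℂ ⧸ 𝔪) + 1)) = 0 := by
    have h1 : φ (aq ^ 2 - ((q' : integralClosure ℤ ℂ) + 1) ^ 2) = 0 :=
      Ideal.Quotient.eq_zero_iff_mem.mpr hLRm
    rw [map_sub, map_pow, map_pow, map_add, map_one, map_natCast] at h1
    rw [← h1]
    ring
  have hε : ∃ ε : ℤ, (ε = 1 ∨ ε = -1) ∧
      φ aq = ((ε * ((q' : ℤ) + 1) : ℤ) : integralClosure ℤ ℂ ⧸ 𝔪) := by
    rcases mul_eq_zero.1 hsq with h | h
    · refine ⟨1, Or.inl rfl, ?_⟩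
      rw [sub_eq_zero] at h
      rw [h]
      push_cast
      ring
    · refine ⟨-1, Or.inr rfl, ?_⟩
      rw [add_eq_zero_iff_eq_neg] at h
      rw [h]
      push_cast
      ring
  obtain ⟨ε, hε1, hε2⟩ := hε
  refine ⟨ε, v, hε1, hv, ?_, ?_⟩
  · intro ℓ hℓN hgood hℓp
    apply hdesc
    rw [heig ℓ hℓN]
    congr 1
    obtain ⟨aℓ, haℓ, hm⟩ := hcong ℓ ℓ.2 hgood hℓN hℓp
    have h1 : a ℓ = aℓ := Subtype.ext (by rw [ha ℓ hℓN, haℓ])
    rw [h1]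
    have h2 : φ aℓ = φ ((W.apOfModel ℓ : ℤ) : integralClosure ℤ ℂ) := Ideal.Quotient.eq.2 hm
    rw [h2, map_intCast]
  · apply hdesc
    rw [heig ⟨q', hq'⟩ hq'N, haq', hε2]

end Application

end Fermat.Agent.P3LR.Occ
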