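/-
P3-LR, wrapper for [ALG]/[DS0]: the ideal `𝔞 = (p, X j - a j) ⊂ ℤ[X_j : j ∈ I]` is maximal
(quotient `ZMod p`), and the condition "`𝔞 • x ⊆ pM`" can be checked on the generators.
-/
import Mathlib

set_option autoImplicit false

namespace Fermat.Agent.P3LR.PolyIdeal

open MvPolynomial

variable {I : Type*} (p : ℕ) (a : I → ℤ)

/-- the ideal `(p, X j - a j)` -/
noncomputable def eigIdeal : Ideal (MvPolynomial I ℤ) :=
  Ideal.span ({C (p : ℤ)} ∪ Set.range (fun j => (X j : MvPolynomial I ℤ) - C (a j)))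

theorem C_p_mem : (C (p : ℤ) : MvPolynomial I ℤ) ∈ eigIdeal p a :=
  Ideal.subset_span (Or.inl rfl)

theorem natCast_mem : ((p : ℕ) : MvPolynomial I ℤ) ∈ eigIdeal p a := by
  have h : ((p : ℕ) : MvPolynomial I ℤ) = C (p : ℤ) := by simp
  rw [h]
  exact C_p_mem p a

theorem X_sub_C_mem (j : I) : (X j : MvPolynomial I ℤ) - C (a j) ∈ eigIdeal p a :=
  Ideal.subset_span (Or.inr ⟨j, rfl⟩)

/-- every polynomial is congruent to its value at `a` modulo the `X j - a j` -/
theorem sub_C_eval_mem (P : MvPolynomial I ℤ) : P - C (eval a P) ∈ eigIdeal p a := by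
  induction P using MvPolynomial.induction_on with
  | C n => simp
  | add P Q hP hQ =>
    have : P + Q - C (eval a (P + Q)) = (P - C (eval a P)) + (Q - C (eval a Q)) := by
      rw [map_add, C_add]; ring
    rw [this]
    exact Ideal.add_mem _ hP hQ
  | mul_X P j hP =>
    have : P * X j - C (eval a (P * X j)) =
        (P - C (eval a P)) * X j + C (eval a P) * (X j - C (a j)) := by
      rw [map_mul, eval_X, C_mul]; ring
    rw [this]
    exact Ideal.add_mem _ (Ideal.mul_mem_right _ _ hP) (Ideal.mul_mem_left _ _ (X_sub_C_mem p a j))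

/-- the evaluation `ℤ[X] → ZMod p`, `X j ↦ a j` -/
noncomputable def evalZMod : MvPolynomial I ℤ →+* ZMod p :=
  (Int.castRingHom (ZMod p)).comp (eval a)

theorem evalZMod_surjective : Function.Surjective (evalZMod p a) := by
  intro c
  obtain ⟨n, rfl⟩ := ZMod.intCast_surjective c
  exact ⟨C n, by simp [evalZMod]⟩

theorem ker_evalZMod : RingHom.ker (evalZMod p a) = eigIdeal p a := by
  apply le_antisymm
  · intro P hP
    rw [RingHom.mem_ker, evalZMod, RingHom.comp_apply, eq_intCast,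
      ZMod.intCast_zmod_eq_zero_iff_dvd] at hP
    obtain ⟨k, hk⟩ := hP
    have h1 : P = (P - C (eval a P)) + C (k) * C (p : ℤ) := by
      rw [← C_mul, mul_comm, ← hk]; ring
    rw [h1]
    exact Ideal.add_mem _ (sub_C_eval_mem p a P) (Ideal.mul_mem_left _ _ (C_p_mem p a))
  · rw [eigIdeal, Ideal.span_le]
    rintro _ (h | ⟨j, rfl⟩)
    · rw [Set.mem_singleton_iff] at h
      rw [h, SetLike.mem_coe, RingHom.mem_ker]
      simp [evalZMod]
    · rw [SetLike.mem_coe, RingHom.mem_ker]
      simp [evalZMod]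

theorem isMaximal [Fact p.Prime] : (eigIdeal p a).IsMaximal := by
  rw [← ker_evalZMod]
  exact RingHom.ker_isMaximal_of_surjective _ (evalZMod_surjective p a)

/-- `r ≡ C (eval a r)` and integers act through their reduction: for `r ∈ 𝔞`, `eval a r ∈ pℤ`. -/
theorem dvd_eval_of_mem {r : MvPolynomial I ℤ} (hr : r ∈ eigIdeal p a) : (p : ℤ) ∣ eval a r := by
  rw [← ker_evalZMod, RingHom.mem_ker, evalZMod, RingHom.comp_apply, eq_intCast,
    ZMod.intCast_zmod_eq_zero_iff_dvd] at hr
  exact hr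

/-- **checking `𝔞 • x ⊆ pM` on generators** -/
theorem smul_mem_pL_of_gens {M : Type*} [AddCommGroup M] [Module (MvPolynomial I ℤ) M] (x : M)
    (hx : ∀ j, ∃ z, ((X j : MvPolynomial I ℤ) - C (a j)) • x = (p : ℤ) • z) :
    ∀ r ∈ eigIdeal p a, ∃ z, r • x = (p : ℤ) • z := by
  -- the set of such `r` is an ideal
  let J : Ideal (MvPolynomial I ℤ) :=
    { carrier := {r | ∃ z, r • x = (p : ℤ) • z}
      zero_mem' := ⟨0, by simp⟩
      add_mem' := by
        rintro r s ⟨z, hz⟩ ⟨w, hw⟩
        exact ⟨z + w, by rw [add_smul, hz, hw, smul_add]⟩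
      smul_mem' := by
        rintro c r ⟨z, hz⟩
        exact ⟨c • z, by rw [smul_eq_mul, mul_smul, hz, smul_comm]⟩ }
  have hle : eigIdeal p a ≤ J := by
    rw [eigIdeal, Ideal.span_le]
    rintro _ (h | ⟨j, rfl⟩)
    · rw [Set.mem_singleton_iff] at h
      refine ⟨x, ?_⟩
      rw [h]
      have : (C (p : ℤ) : MvPolynomial I ℤ) = ((p : ℤ) : MvPolynomial I ℤ) := by simp
      rw [this, Int.cast_smul_eq_zsmul]
    · exact hx j
  intro r hr
  exact hle hr

end Fermat.Agent.P3LR.PolyIdeal
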