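/-
P3-LR, block [ALG]/[DS0], wrapper: a commuting family `t : I → End_ℤ M` makes `M` a module over
`MvPolynomial I ℤ`; the ideal `𝔞 = (p, X j - a j)` is maximal, and "`𝔞 • x ⊆ pM`" is checked on
generators.
-/
import Mathlib

set_option autoImplicit false

namespace Fermat.Agent.P3LR.Poly

open MvPolynomial

section Act

variable {I : Type*} {M : Type*} [AddCommGroup M] (t : I → Module.End ℤ M)
  (ht : ∀ j k, Commute (t j) (t k))

/-- the commutative subalgebra generated by the `t j` -/
abbrev heckeSub : Subalgebra ℤ (Module.End ℤ M) := Algebra.adjoin ℤ (Set.range t)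

include ht in
theorem heckeSub_comm : ∀ a ∈ Set.range t, ∀ b ∈ Set.range t, a * b = b * a := by
  rintro _ ⟨j, rfl⟩ _ ⟨k, rfl⟩
  exact (ht j k).eq

/-- `MvPolynomial I ℤ → End_ℤ M`, `X j ↦ t j` -/
noncomputable def polyAct : MvPolynomial I ℤ →+* Module.End ℤ M :=
  letI : CommRing (heckeSub t) := Algebra.adjoinCommRingOfComm ℤ (heckeSub_comm t ht)
  (heckeSub t).val.toRingHom.comp
    (MvPolynomial.aeval (R := ℤ) (S₁ := heckeSub t)
      (fun j => ⟨t j, Algebra.subset_adjoin ⟨j, rfl⟩⟩)).toRingHom

@[simp] theorem polyAct_X (j : I) : polyAct t ht (X j) = t j := by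
  letI : CommRing (heckeSub t) := Algebra.adjoinCommRingOfComm ℤ (heckeSub_comm t ht)
  simp [polyAct]

@[simp] theorem polyAct_C (n : ℤ) : polyAct t ht (C n) = n • (1 : Module.End ℤ M) := by
  letI : CommRing (heckeSub t) := Algebra.adjoinCommRingOfComm ℤ (heckeSub_comm t ht)
  simp [polyAct, Algebra.algebraMap_eq_smul_one]

/-- the `MvPolynomial I ℤ`-module structure on `M` -/
@[reducible] noncomputable def polyModule : Module (MvPolynomial I ℤ) M :=
  Module.compHom M (polyAct t ht)

theorem polyModule_smul_def (P : MvPolynomial I ℤ) (x : M) :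
    (letI := polyModule t ht; P • x) = polyAct t ht P x := rfl

theorem polyModule_X_smul (j : I) (x : M) : (letI := polyModule t ht; (X j : MvPolynomial I ℤ) • x) = t j x := by
  rw [polyModule_smul_def, polyAct_X]

theorem polyModule_C_smul (n : ℤ) (x : M) : (letI := polyModule t ht; (C n : MvPolynomial I ℤ) • x) = n • x := by
  rw [polyModule_smul_def, polyAct_C]; rfl

end Act

end Fermat.Agent.P3LR.Poly
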