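/-
P3-LR, wrapper lemmas for the `MvPolynomial I ℤ`-module structures of `P3LR/Poly.lean`:
maps commuting with the generators are `MvPolynomial I ℤ`-linear, pairings for which the
generators are self-adjoint are self-adjoint for all polynomials.
-/
import Mathlib
import Fermat.Agent.P3LR.Poly

set_option autoImplicit false

namespace Fermat.Agent.P3LR.PolyLin

open MvPolynomial Fermat.Agent.P3LR.Poly

variable {I : Type*} {M M' : Type*} [AddCommGroup M] [AddCommGroup M']
  (t : I → Module.End ℤ M) (ht : ∀ j k, Commute (t j) (t k))
  (t' : I → Module.End ℤ M') (ht' : ∀ j k, Commute (t' j) (t' k))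

/-- an additive map commuting with the generators commutes with all polynomials -/
theorem polyAct_comm (f : M →+ M') (h : ∀ j x, f (t j x) = t' j (f x))
    (P : MvPolynomial I ℤ) (x : M) : f (polyAct t ht P x) = polyAct t' ht' P (f x) := by
  induction P using MvPolynomial.induction_on generalizing x with
  | C n =>
    rw [polyAct_C, polyAct_C, LinearMap.smul_apply, LinearMap.smul_apply, Module.End.one_apply,
      Module.End.one_apply, map_zsmul]
  | add P Q hP hQ =>
    rw [map_add, map_add, LinearMap.add_apply, LinearMap.add_apply, map_add, hP, hQ]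
  | mul_X P j hP =>
    rw [map_mul, map_mul, polyAct_X, polyAct_X, Module.End.mul_apply, Module.End.mul_apply, hP, h]

/-- a `ℤ`-linear map commuting with the generators, as a `MvPolynomial I ℤ`-linear map -/
noncomputable def polyLin (f : M →+ M') (h : ∀ j x, f (t j x) = t' j (f x)) :
    @LinearMap (MvPolynomial I ℤ) (MvPolynomial I ℤ) _ _ (RingHom.id _) M M' _ _
      (polyModule t ht) (polyModule t' ht') :=
  letI := polyModule t ht
  letI := polyModule t' ht'
  { toFun := f
    map_add' := f.map_add
    map_smul' := fun P x => polyAct_comm t ht t' ht' f h P x }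

@[simp] theorem polyLin_apply (f : M →+ M') (h : ∀ j x, f (t j x) = t' j (f x)) (x : M) :
    polyLin t ht t' ht' f h x = f x := rfl

/-- a pairing for which the generators are self-adjoint -/
theorem polyAct_selfadj {Z : Type*} [AddCommGroup Z] (B : M →+ M →+ Z)
    (h : ∀ j x y, B (t j x) y = B x (t j y)) (P : MvPolynomial I ℤ) (x y : M) :
    B (polyAct t ht P x) y = B x (polyAct t ht P y) := by
  induction P using MvPolynomial.induction_on generalizing x y with
  | C n =>
    rw [polyAct_C, LinearMap.smul_apply, LinearMap.smul_apply, Module.End.one_apply,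
      Module.End.one_apply, map_zsmul, map_zsmul, AddMonoidHom.smul_apply]
  | add P Q hP hQ =>
    rw [map_add, LinearMap.add_apply, LinearMap.add_apply, map_add, map_add,
      AddMonoidHom.add_apply, hP, hQ]
  | mul_X P j hP =>
    have h1 : polyAct t ht (P * X j) = polyAct t ht P * t j := by rw [map_mul, polyAct_X]
    have h2 : polyAct t ht (P * X j) = t j * polyAct t ht P := by
      rw [mul_comm, map_mul, polyAct_X]
    calc B (polyAct t ht (P * X j) x) y = B (polyAct t ht P (t j x)) y := by
          rw [h1, Module.End.mul_apply]
      _ = B x (t j (polyAct t ht P y)) := by rw [hP, h]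
      _ = B x (polyAct t ht (P * X j) y) := by rw [h2, Module.End.mul_apply]

end Fermat.Agent.P3LR.PolyLin
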