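/-
P3-LR ASSEMBLY (abstract core): the frozen S41 (level raising) from the interface objects of
`P3LR/AsmDefs.lean` (`DegData`, `PDData`, `IharaInput`) and `NotEisenstein`.

Chain: [OCC] `v ∈ Λ_N ∖ pΛ_N`, `ε = ±1` → `x = (v, -εv)`, `y = i x ∈ Λ_{Nq}` → (R1) `i† y ∈ pL`,
(R2) `y` is an eigenvector mod `p`, `y ∉ pΛ_{Nq}` by `hinj` (Ihara + (IH3) + (NE)) → [ALG]
`y' ∈ ker i†` → [DS0] on `ker i†` → transport to `parHomAdd (Nq) ℂ` → (U2) → [DS1].
-/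
import Mathlib
import Fermat.Agent.P3LR.AsmDefs
import Fermat.Agent.P3LR.Occ
import Fermat.Agent.P3LR.Alg
import Fermat.Agent.P3LR.PolyLin
import Fermat.Agent.P3LR.PolyIdeal
import Fermat.Agent.P3LR.DS0
import Fermat.Agent.P3LR.DS1
import Fermat.Agent.P3LR.HInj
import Fermat.Agent.P3LR.LatticeC
import Fermat.Agent.N4F.Tors.OutputsFinal

set_option autoImplicit false

open CongruenceSubgroup MvPolynomial
open scoped TensorProduct MatrixGroups

noncomputable section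

namespace Fermat.Agent.P3LR.Assembly

open Fermat.Agent.N4F.Tors.HeckeHom Fermat.Agent.N4F.Tors.Outputs
  Fermat.Agent.N4F.Tors.OutputsFinal Fermat.Agent.S16.Lower.USystem Fermat.Agent.P3LR.AsmDefs
  Fermat.Agent.P3LR.Poly Fermat.Agent.P3LR.PolyLin Fermat.Agent.P3LR.PolyIdeal
  Fermat.Agent.S41.NE.Shape

/-! ### The degeneracy maps on the lattices -/

section Lattice

variable {N q : ℕ} [Fact q.Prime] {hqN : ¬ q ∣ N} (D : DegData N q hqN)

/-- `res` on the lattices -/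
def resL : parHomAdd N ℤ →+ parHomAdd (N * q) ℤ where
  toFun φ := ⟨D.res ℤ φ.1, D.res_mem ℤ φ.2⟩
  map_zero' := Subtype.ext (map_zero _)
  map_add' _ _ := Subtype.ext (map_add _ _ _)

/-- `resEta` on the lattices -/
def resEtaL : parHomAdd N ℤ →+ parHomAdd (N * q) ℤ where
  toFun φ := ⟨D.resEta ℤ φ.1, D.resEta_mem ℤ φ.2⟩
  map_zero' := Subtype.ext (map_zero _)
  map_add' _ _ := Subtype.ext (map_add _ _ _)

/-- `cores` on the lattices -/
def coresL : parHomAdd (N * q) ℤ →+ parHomAdd N ℤ where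
  toFun ψ := ⟨D.cores ℤ ψ.1, D.cores_mem ℤ ψ.2⟩
  map_zero' := Subtype.ext (map_zero _)
  map_add' _ _ := Subtype.ext (map_add _ _ _)

/-- `coresEta` on the lattices -/
def coresEtaL : parHomAdd (N * q) ℤ →+ parHomAdd N ℤ where
  toFun ψ := ⟨D.coresEta ℤ ψ.1, D.coresEta_mem ℤ ψ.2⟩
  map_zero' := Subtype.ext (map_zero _)
  map_add' _ _ := Subtype.ext (map_add _ _ _)

/-- `i = res + resEta : Λ_N² → Λ_{Nq}` -/
def iL : parHomAdd N ℤ × parHomAdd N ℤ →+ parHomAdd (N * q) ℤ :=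
  (resL D).coprod (resEtaL D)

/-- `i† = (cores, coresEta) : Λ_{Nq} → Λ_N²` -/
def iDL : parHomAdd (N * q) ℤ →+ parHomAdd N ℤ × parHomAdd N ℤ :=
  (coresL D).prod (coresEtaL D)

theorem iL_apply (x : parHomAdd N ℤ × parHomAdd N ℤ) :
    iL D x = resL D x.1 + resEtaL D x.2 := rfl

theorem iDL_apply (y : parHomAdd (N * q) ℤ) : iDL D y = (coresL D y, coresEtaL D y) := rfl

/-- the prime `q` as an element of `Nat.Primes` -/
def qP (q : ℕ) [h : Fact q.Prime] : Nat.Primes := ⟨q, h.out⟩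

theorem coresL_resL (φ : parHomAdd N ℤ) : coresL D (resL D φ) = ((q : ℤ) + 1) • φ := by
  apply Subtype.ext
  show D.cores ℤ (D.res ℤ φ.1) = _
  rw [D.cores_res φ.1 φ.2, AddSubgroup.coe_zsmul]
  have : ((q : ℤ) + 1) = ((q + 1 : ℕ) : ℤ) := by push_cast; ring
  rw [this, natCast_zsmul]

theorem coresEtaL_resEtaL (φ : parHomAdd N ℤ) :
    coresEtaL D (resEtaL D φ) = ((q : ℤ) + 1) • φ := by
  apply Subtype.ext
  show D.coresEta ℤ (D.resEta ℤ φ.1) = _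
  rw [D.coresEta_resEta φ.1 φ.2, AddSubgroup.coe_zsmul]
  have : ((q : ℤ) + 1) = ((q + 1 : ℕ) : ℤ) := by push_cast; ring
  rw [this, natCast_zsmul]

theorem coresL_resEtaL (φ : parHomAdd N ℤ) :
    coresL D (resEtaL D φ) = heckeLattice N (qP q) hqN φ :=
  Subtype.ext (D.cores_resEta φ.1 φ.2)

theorem coresEtaL_resL (φ : parHomAdd N ℤ) :
    coresEtaL D (resL D φ) = heckeLattice N (qP q) hqN φ :=
  Subtype.ext (D.coresEta_res φ.1 φ.2)

end Lattice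

/-! ### The index set, the Hecke families and the polynomial module structures -/

section Families

variable (W : WeierstrassCurve ℤ) (p N q : ℕ)

/-- the index set of the Hecke operators used: good primes `ℓ ∤ Nq`, `ℓ ≠ p` -/
def Idx : Type :=
  {ℓ : Nat.Primes // W.IsGoodPrimeFor ℓ ∧ ¬ (ℓ : ℕ) ∣ N * q ∧ (ℓ : ℕ) ≠ p}

variable {W p N q}

theorem Idx.not_dvd (j : Idx W p N q) : ¬ (j.1 : ℕ) ∣ N :=
  fun h => j.2.2.1 (Dvd.dvd.mul_right h q)

/-- the integer eigenvalues `a_ℓ(W)` -/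
def aW (j : Idx W p N q) : ℤ := W.apOfModel (j.1 : ℕ)

/-- `T_ℓ` on `Λ_{Nq}` -/
def tM (j : Idx W p N q) : Module.End ℤ (parHomAdd (N * q) ℤ) :=
  heckeLattice (N * q) j.1 j.2.2.1

/-- `T_ℓ` on `Λ_N` -/
def tN (j : Idx W p N q) : Module.End ℤ (parHomAdd N ℤ) := heckeLattice N j.1 j.not_dvd

/-- `T_ℓ` on `Λ_N²` -/
def tNN (j : Idx W p N q) : Module.End ℤ (parHomAdd N ℤ × parHomAdd N ℤ) :=
  (tN j).prodMap (tN j)

theorem tNN_apply (j : Idx W p N q) (x : parHomAdd N ℤ × parHomAdd N ℤ) :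
    tNN j x = (tN j x.1, tN j x.2) := rfl

theorem tM_comm [NeZero (N * q)] (j k : Idx W p N q) : Commute (tM j) (tM k) :=
  heckeLattice_commute (N * q) j.1 k.1 _ _

theorem tN_comm [NeZero N] (j k : Idx W p N q) : Commute (tN j) (tN k) :=
  heckeLattice_commute N j.1 k.1 _ _

theorem tNN_comm [NeZero N] (j k : Idx W p N q) : Commute (tNN j) (tNN k) := by
  refine LinearMap.ext fun x => ?_
  have h := fun y => LinearMap.congr_fun (tN_comm j k).eq y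
  show tNN j (tNN k x) = tNN k (tNN j x)
  rw [tNN_apply, tNN_apply, tNN_apply, tNN_apply]
  exact Prod.ext (h x.1) (h x.2)

end Families

/-! ### Equivariance of `i`, `i†` -/

section Equivariance

variable {W : WeierstrassCurve ℤ} {p N q : ℕ} [Fact q.Prime] {hqN : ¬ q ∣ N}
  (D : DegData N q hqN)

theorem iL_tNN (j : Idx W p N q) (x : parHomAdd N ℤ × parHomAdd N ℤ) :
    iL D (tNN j x) = tM j (iL D x) := by
  rw [iL_apply, iL_apply, map_add, tNN_apply]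
  congr 1
  · exact Subtype.ext (D.res_hecke j.1 j.2.2.1 j.not_dvd x.1.1 x.1.2)
  · exact Subtype.ext (D.resEta_hecke j.1 j.2.2.1 j.not_dvd x.2.1 x.2.2)

theorem iDL_tM (j : Idx W p N q) (y : parHomAdd (N * q) ℤ) :
    iDL D (tM j y) = tNN j (iDL D y) := by
  rw [iDL_apply, iDL_apply, tNN_apply]
  refine Prod.ext ?_ ?_
  · exact Subtype.ext (D.cores_hecke j.1 j.2.2.1 j.not_dvd y.1 y.2)
  · exact Subtype.ext (D.coresEta_hecke j.1 j.2.2.1 j.not_dvd y.1 y.2)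

end Equivariance

/-! ### The pairing on `Λ_N²` -/

section Pairing

variable {Λ Z : Type*} [AddCommGroup Λ] [AddCommGroup Z]

/-- the orthogonal sum of a pairing with itself -/
def pairNN (pd : Λ →+ Λ →+ Z) : (Λ × Λ) →+ (Λ × Λ) →+ Z :=
  AddMonoidHom.mk' (fun x => (pd x.1).comp (AddMonoidHom.fst Λ Λ) +
      (pd x.2).comp (AddMonoidHom.snd Λ Λ))
    (fun x y => by
      ext z
      simp only [AddMonoidHom.add_apply, AddMonoidHom.comp_apply, AddMonoidHom.coe_fst,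
        AddMonoidHom.coe_snd, Prod.fst_add, Prod.snd_add, map_add]
      abel)

@[simp] theorem pairNN_apply (pd : Λ →+ Λ →+ Z) (x y : Λ × Λ) :
    pairNN pd x y = pd x.1 y.1 + pd x.2 y.2 := rfl

end Pairing

/-! ### `hinj`: Ihara + (IH3) + (NE) -/

section HInj

variable {W : WeierstrassCurve ℤ} {p N q : ℕ} [Fact q.Prime] {hqN : ¬ q ∣ N}
  (D : DegData N q hqN)

theorem hinj_of_inputs [NeZero N] (hp : p.Prime) (hIH : IharaInput p D)
    (hNE : NotEisenstein W p) (x : parHomAdd N ℤ × parHomAdd N ℤ)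
    (hx : ∀ j : Idx W p N q, ∃ z, tNN j x - aW j • x = (p : ℤ) • z)
    (hix : ∃ z, iL D x = (p : ℤ) • z) : ∃ z, x = (p : ℤ) • z := by
  have : NeZero p := ⟨hp.ne_zero⟩
  obtain ⟨z, hz⟩ := hix
  have key : D.res (ZMod p) (redPar N p x.1).1 + D.resEta (ZMod p) (redPar N p x.2).1 = 0 := by
    have h1 : (redPar N p x.1).1 = (Int.castAddHom (ZMod p)).comp x.1.1 := rfl
    have h2 : (redPar N p x.2).1 = (Int.castAddHom (ZMod p)).comp x.2.1 := rfl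
    rw [h1, h2, D.res_comp, D.resEta_comp, ← AddMonoidHom.comp_add]
    have h3 : D.res ℤ x.1.1 + D.resEta ℤ x.2.1 = (iL D x).1 := rfl
    rw [h3, hz]
    refine AddMonoidHom.ext fun g => ?_
    rw [AddMonoidHom.comp_apply, AddSubgroup.coe_zsmul, AddMonoidHom.smul_apply, smul_eq_mul,
      Int.coe_castAddHom, AddMonoidHom.zero_apply]
    show (((p : ℤ) * (z : Additive ↥(Gamma0 (N * q)) →+ ℤ) g : ℤ) : ZMod p) = 0
    rw [Int.cast_mul, Int.cast_natCast, ZMod.natCast_self, zero_mul]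
  obtain ⟨m, hm, hvan⟩ := hIH _ _ (redPar N p x.1).2 (redPar N p x.2).2 key
  have hone : ∀ xk : parHomAdd N ℤ,
      (∀ g : ↥(Gamma0 N), (g : SL(2, ℤ)) ∈ Gamma m →
        (redPar N p xk).1 (Additive.ofMul g) = 0) →
      (∀ j : Idx W p N q, ∃ z, tN j xk - aW j • xk = (p : ℤ) • z) →
      ∃ z, xk = (p : ℤ) • z := by
    intro xk hk hjk
    refine HInj.eq_smul_of_congruence hp hNE (N * q).primeFactors xk m hm ?_ ?_
    · intro g hg
      have h := hk g hg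
      exact (ZMod.intCast_zmod_eq_zero_iff_dvd _ p).1 h
    · intro ℓ hℓN hgood hℓT hℓp
      have hnd : ¬ (ℓ : ℕ) ∣ N * q := fun h =>
        hℓT (Nat.mem_primeFactors.2 ⟨ℓ.2, h, by
          have h0 : N ≠ 0 := NeZero.ne N
          have hq0 : q ≠ 0 := (Fact.out : q.Prime).ne_zero
          exact mul_ne_zero h0 hq0⟩)
      exact hjk ⟨ℓ, hgood, hnd, hℓp⟩
  obtain ⟨z₁, hz₁⟩ := hone x.1 (fun g hg => (hvan g hg).1) (fun j => by
    obtain ⟨w, hw⟩ := hx j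
    exact ⟨w.1, congrArg Prod.fst hw⟩)
  obtain ⟨z₂, hz₂⟩ := hone x.2 (fun g hg => (hvan g hg).2) (fun j => by
    obtain ⟨w, hw⟩ := hx j
    exact ⟨w.2, congrArg Prod.snd hw⟩)
  exact ⟨(z₁, z₂), Prod.ext hz₁ hz₂⟩

end HInj

/-! ### Step A: an eigenvector mod `p` in `ker i†` -/

section StepA

variable {W : WeierstrassCurve ℤ} {p N q : ℕ} [Fact q.Prime] {hqN : ¬ q ∣ N}
  (D : DegData N q hqN)

/-- (R1): `i† (i (v, -εv)) ∈ p L` -/
theorem iDL_iL_mem (ε : ℤ) (hε : ε = 1 ∨ ε = -1) (v : parHomAdd N ℤ)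
    (hvq : ∃ z, heckeLattice N (qP q) hqN v - (ε * ((q : ℤ) + 1)) • v = (p : ℤ) • z) :
    ∃ z, iDL D (iL D (v, (-ε) • v)) = (p : ℤ) • z := by
  obtain ⟨z₀, hz₀⟩ := hvq
  have hT : heckeLattice N (qP q) hqN v = (ε * ((q : ℤ) + 1)) • v + (p : ℤ) • z₀ := by
    rw [← hz₀]; abel
  refine ⟨((-ε) • z₀, z₀), ?_⟩
  rw [iDL_apply, iL_apply]
  refine Prod.ext ?_ ?_
  · show coresL D (resL D v + resEtaL D ((-ε) • v)) = (p : ℤ) • ((-ε) • z₀)
    rw [map_add, map_zsmul, map_zsmul, coresL_resL, coresL_resEtaL, hT]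
    rcases hε with rfl | rfl
    · module
    · module
  · show coresEtaL D (resL D v + resEtaL D ((-ε) • v)) = (p : ℤ) • z₀
    rw [map_add, map_zsmul, map_zsmul, coresEtaL_resL, coresEtaL_resEtaL, hT]
    module

omit [Fact q.Prime] in
/-- `x = (v, -εv)` is an eigenvector mod `p` -/
theorem gen_pair (ε : ℤ) (v : parHomAdd N ℤ)
    (hvj : ∀ j : Idx W p N q, ∃ z, tN j v - aW j • v = (p : ℤ) • z) (j : Idx W p N q) :
    ∃ z, tNN j (v, (-ε) • v) - aW j • (v, (-ε) • v) = (p : ℤ) • z := by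
  obtain ⟨z₀, hz₀⟩ := hvj j
  refine ⟨(z₀, (-ε) • z₀), ?_⟩
  rw [tNN_apply]
  refine Prod.ext ?_ ?_
  · exact hz₀
  · show tN j ((-ε) • v) - aW j • ((-ε) • v) = (p : ℤ) • ((-ε) • z₀)
    rw [map_zsmul, smul_comm (aW j) (-ε) v, ← smul_sub, hz₀, smul_comm]

theorem pairNN_nondeg {Λ : Type*} [AddCommGroup Λ] (pd : Λ →+ Λ →+ ZMod p)
    (h : ∀ x, (∀ y, pd x y = 0) → ∃ z, x = (p : ℤ) • z) (x : Λ × Λ)
    (hx : ∀ y, pairNN pd x y = 0) : ∃ z, x = (p : ℤ) • z := by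
  obtain ⟨z₁, hz₁⟩ := h x.1 (fun y => by
    have := hx (y, 0)
    rwa [pairNN_apply, map_zero, add_zero] at this)
  obtain ⟨z₂, hz₂⟩ := h x.2 (fun y => by
    have := hx (0, y)
    rwa [pairNN_apply, map_zero, zero_add] at this)
  exact ⟨(z₁, z₂), Prod.ext hz₁ hz₂⟩

theorem pairNN_adj (PD : PDData p D) (x : parHomAdd N ℤ × parHomAdd N ℤ)
    (y : parHomAdd (N * q) ℤ) : PD.pdM (iL D x) y = pairNN PD.pdN x (iDL D y) := by
  rw [iL_apply, map_add, AddMonoidHom.add_apply, pairNN_apply, iDL_apply]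
  congr 1
  · exact PD.res_adj x.1 y
  · exact PD.resEta_adj x.2 y

theorem pairNN_self (PD : PDData p D) (j : Idx W p N q)
    (x y : parHomAdd N ℤ × parHomAdd N ℤ) :
    pairNN PD.pdN (tNN j x) y = pairNN PD.pdN x (tNN j y) := by
  rw [pairNN_apply, pairNN_apply, tNN_apply, tNN_apply]
  congr 1
  · exact PD.hself j.1 j.not_dvd j.2.2.1 j.2.2.2 x.1 y.1
  · exact PD.hself j.1 j.not_dvd j.2.2.1 j.2.2.2 x.2 y.2

set_option maxHeartbeats 1600000 in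
theorem exists_ker_eigenvector [NeZero N] [NeZero (N * q)] [Fact p.Prime]
    (PD : PDData p D) (hIH : IharaInput p D) (hNE : NotEisenstein W p)
    (ε : ℤ) (hε : ε = 1 ∨ ε = -1) (v : parHomAdd N ℤ) (hv : ¬ ∃ z, v = (p : ℤ) • z)
    (hvj : ∀ j : Idx W p N q, ∃ z, tN j v - aW j • v = (p : ℤ) • z)
    (hvq : ∃ z, heckeLattice N (qP q) hqN v - (ε * ((q : ℤ) + 1)) • v = (p : ℤ) • z) :
    ∃ y' : parHomAdd (N * q) ℤ, iDL D y' = 0 ∧ (¬ ∃ z, y' = (p : ℤ) • z) ∧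
      ∀ j : Idx W p N q, ∃ z, iDL D z = 0 ∧ tM j y' - aW j • y' = (p : ℤ) • z := by
  classical
  have hp : p.Prime := Fact.out
  have hfreeN : Module.Free ℤ (parHomAdd N ℤ) := Occ.free_parHomAdd N
  have hfinN : Module.Finite ℤ (parHomAdd N ℤ) := Occ.finite_parHomAdd N
  let modL : Module (MvPolynomial (Idx W p N q) ℤ) (parHomAdd N ℤ × parHomAdd N ℤ) :=
    polyModule (tNN (W := W) (p := p) (N := N) (q := q)) tNN_comm
  let modL' : Module (MvPolynomial (Idx W p N q) ℤ) (parHomAdd (N * q) ℤ) :=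
    polyModule (tM (W := W) (p := p) (N := N) (q := q)) tM_comm
  let i := polyLin (tNN (W := W) (p := p) (N := N) (q := q)) tNN_comm tM tM_comm (iL D) (iL_tNN D)
  let iD := polyLin (tM (W := W) (p := p) (N := N) (q := q)) tM_comm tNN tNN_comm (iDL D)
    (iDL_tM D)
  -- the generators of `𝔞` act as `T_ℓ - a_ℓ`
  have hgenL : ∀ (j : Idx W p N q) (x : parHomAdd N ℤ × parHomAdd N ℤ),
      ((X j : MvPolynomial (Idx W p N q) ℤ) - C (aW j)) • x = tNN j x - aW j • x := by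
    intro j x
    rw [sub_smul, polyModule_X_smul, polyModule_C_smul]
  have hgenL' : ∀ (j : Idx W p N q) (y : parHomAdd (N * q) ℤ),
      ((X j : MvPolynomial (Idx W p N q) ℤ) - C (aW j)) • y = tM j y - aW j • y := by
    intro j y
    rw [sub_smul, polyModule_X_smul, polyModule_C_smul]
  -- `hinj`
  have hinj : ∀ x : parHomAdd N ℤ × parHomAdd N ℤ,
      (∀ r ∈ eigIdeal p (aW (W := W) (p := p) (N := N) (q := q)), ∃ z, r • x = (p : ℤ) • z) →
      (∃ z, i x = (p : ℤ) • z) → ∃ z, x = (p : ℤ) • z := by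
    intro x hx𝔞 hix
    refine hinj_of_inputs D hp hIH hNE x (fun j => ?_) hix
    obtain ⟨z, hz⟩ := hx𝔞 _ (X_sub_C_mem p aW j)
    exact ⟨z, by rw [← hz, hgenL]⟩
  -- the vector `x = (v, -ε v)` and `y = i x`
  have hx𝔞 : ∀ r ∈ eigIdeal p (aW (W := W) (p := p) (N := N) (q := q)),
      ∃ z, r • ((v, (-ε) • v) : parHomAdd N ℤ × parHomAdd N ℤ) = (p : ℤ) • z := by
    refine smul_mem_pL_of_gens p aW _ (fun j => ?_)
    obtain ⟨z, hz⟩ := gen_pair ε v hvj j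
    exact ⟨z, by rw [hgenL, hz]⟩
  have hxnot : ¬ ∃ z, ((v, (-ε) • v) : parHomAdd N ℤ × parHomAdd N ℤ) = (p : ℤ) • z := by
    rintro ⟨z, hz⟩
    exact hv ⟨z.1, congrArg Prod.fst hz⟩
  have hy : ¬ ∃ z, i (v, (-ε) • v) = (p : ℤ) • z := fun h => hxnot (hinj _ hx𝔞 h)
  have hyeig : ∀ r ∈ eigIdeal p (aW (W := W) (p := p) (N := N) (q := q)),
      ∃ z, r • i (v, (-ε) • v) = (p : ℤ) • z := by
    intro r hr
    obtain ⟨z, hz⟩ := hx𝔞 r hr
    exact ⟨i z, by rw [← map_smul, hz, map_zsmul]⟩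
  have hyD : ∃ z, iD (i (v, (-ε) • v)) = (p : ℤ) • z := iDL_iL_mem D ε hε v hvq
  have hself : ∀ (r : MvPolynomial (Idx W p N q) ℤ) (x y : parHomAdd N ℤ × parHomAdd N ℤ),
      pairNN PD.pdN (r • x) y = pairNN PD.pdN x (r • y) := fun r x y =>
    polyAct_selfadj tNN tNN_comm (pairNN PD.pdN) (pairNN_self D PD) r x y
  obtain ⟨y', h1, h2, h3⟩ := Alg.exists_eigenvector_ker
    (eigIdeal p (aW (W := W) (p := p) (N := N) (q := q))) p (natCast_mem p aW) i iD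
    (pairNN PD.pdN) PD.pdM (pairNN_nondeg PD.pdN PD.nondegN) PD.nondegM (pairNN_adj D PD) hself
    hinj (i (v, (-ε) • v)) hy hyeig hyD
  refine ⟨y', h1, h2, fun j => ?_⟩
  obtain ⟨z, hz0, hz⟩ := h3 _ (X_sub_C_mem p aW j)
  exact ⟨z, hz0, by rw [← hz, hgenL']⟩

end StepA

/-! ### Step B: from `ker i†` to a `q`-new eigenform -/

section StepB

variable {W : WeierstrassCurve ℤ} {p N q : ℕ} [Fact q.Prime] {hqN : ¬ q ∣ N}
  (D : DegData N q hqN)

/-- `ker i† ⊆ Λ_{Nq}` -/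
def kerD : Submodule ℤ (parHomAdd (N * q) ℤ) := LinearMap.ker (iDL D).toIntLinearMap

theorem mem_kerD (y : parHomAdd (N * q) ℤ) : y ∈ kerD D ↔ iDL D y = 0 := Iff.rfl

theorem tM_mem_kerD (j : Idx W p N q) {y : parHomAdd (N * q) ℤ} (hy : y ∈ kerD D) :
    tM j y ∈ kerD D := by
  rw [mem_kerD] at hy ⊢
  rw [iDL_tM, hy, map_zero]

/-- `T_ℓ` on `ker i†` -/
def t₀ (j : Idx W p N q) : Module.End ℤ (kerD D) :=
  (tM j).restrict (fun _ hy => tM_mem_kerD D j hy)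

theorem t₀_coe (j : Idx W p N q) (y : kerD D) :
    ((t₀ D j y : kerD D) : parHomAdd (N * q) ℤ) = tM j (y : parHomAdd (N * q) ℤ) := rfl

theorem t₀_comm [NeZero (N * q)] (j k : Idx W p N q) : Commute (t₀ D j) (t₀ D k) := by
  refine LinearMap.ext fun y => Subtype.ext ?_
  exact LinearMap.congr_fun (tM_comm j k).eq y.1

theorem cores_eq_zero_of_mem_kerD (y : kerD D) :
    D.cores ℤ (y : parHomAdd (N * q) ℤ).1 = 0 := by
  have h := (mem_kerD D y.1).1 y.2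
  rw [iDL_apply] at h
  exact congrArg Subtype.val (congrArg Prod.fst h)

theorem coresEta_eq_zero_of_mem_kerD (y : kerD D) :
    D.coresEta ℤ (y : parHomAdd (N * q) ℤ).1 = 0 := by
  have h := (mem_kerD D y.1).1 y.2
  rw [iDL_apply] at h
  exact congrArg Subtype.val (congrArg Prod.snd h)

set_option maxHeartbeats 1600000 in
/-- [DS0] on `ker i†` -/
theorem exists_lift_ker [NeZero (N * q)] [Fact p.Prime]
    (y' : parHomAdd (N * q) ℤ) (h0 : iDL D y' = 0) (hy' : ¬ ∃ z, y' = (p : ℤ) • z)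
    (hgen : ∀ j : Idx W p N q, ∃ z, iDL D z = 0 ∧ tM j y' - aW j • y' = (p : ℤ) • z) :
    ∃ (χ : MvPolynomial (Idx W p N q) ℤ →+* ℂ) (𝔪' : Ideal (integralClosure ℤ ℂ))
      (v : ℂ ⊗[ℤ] (kerD D)), 𝔪'.IsMaximal ∧ v ≠ 0 ∧
      (∀ j : Idx W p N q, (t₀ D j).baseChange ℂ v = χ (X j) • v) ∧
      ∀ r ∈ eigIdeal p (aW (W := W) (p := p) (N := N) (q := q)),
        ∃ c : integralClosure ℤ ℂ, (c : ℂ) = χ r ∧ c ∈ 𝔪' := by
  classical
  have hfreeM : Module.Free ℤ (parHomAdd (N * q) ℤ) := Occ.free_parHomAdd (N * q)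
  have hfinM : Module.Finite ℤ (parHomAdd (N * q) ℤ) := Occ.finite_parHomAdd (N * q)
  let mod₀ : Module (MvPolynomial (Idx W p N q) ℤ) (kerD D) :=
    polyModule (t₀ (W := W) (p := p) D) (t₀_comm D)
  have hmax𝔞 : (eigIdeal p (aW (W := W) (p := p) (N := N) (q := q))).IsMaximal :=
    PolyIdeal.isMaximal p aW
  have hgen₀ : ∀ (j : Idx W p N q) (y : kerD D),
      ((X j : MvPolynomial (Idx W p N q) ℤ) - C (aW j)) • y = t₀ D j y - aW j • y := by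
    intro j y
    rw [sub_smul, polyModule_X_smul, polyModule_C_smul]
  -- the vector of `ker i†`
  let y₀ : kerD D := ⟨y', (mem_kerD D y').2 h0⟩
  have hy₀ : ¬ ∃ z : kerD D, y₀ = (p : ℤ) • z := by
    rintro ⟨z, hz⟩
    exact hy' ⟨z.1, congrArg Subtype.val hz⟩
  have hyeig₀ : ∀ r ∈ eigIdeal p (aW (W := W) (p := p) (N := N) (q := q)),
      ∃ z : kerD D, r • y₀ = (p : ℤ) • z := by
    refine smul_mem_pL_of_gens p aW y₀ (fun j => ?_)
    obtain ⟨z, hz0, hz⟩ := hgen j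
    refine ⟨⟨z, (mem_kerD D z).2 hz0⟩, ?_⟩
    rw [hgen₀]
    exact Subtype.ext hz
  obtain ⟨χ, 𝔪', v, hmax', hv0, hχ, hχ𝔞⟩ :=
    DS0.exists_lift (eigIdeal p (aW (W := W) (p := p) (N := N) (q := q))) p y₀ hy₀ hyeig₀
  refine ⟨χ, 𝔪', v, hmax', hv0, fun j => ?_, hχ𝔞⟩
  have h2 : Module.toModuleEnd ℤ (S := MvPolynomial (Idx W p N q) ℤ) (kerD D) (X j) =
      t₀ D j := by
    refine LinearMap.ext fun y => ?_
    exact polyModule_X_smul (t₀ (W := W) (p := p) D) (t₀_comm D) j y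
  have h3 := hχ (X j)
  rw [h2] at h3
  exact h3

set_option maxHeartbeats 1600000 in
theorem exists_eigenform_of_ker_eigenvector [NeZero (N * q)] [Fact p.Prime]
    (y' : parHomAdd (N * q) ℤ) (h0 : iDL D y' = 0) (hy' : ¬ ∃ z, y' = (p : ℤ) • z)
    (hgen : ∀ j : Idx W p N q, ∃ z, iDL D z = 0 ∧ tM j y' - aW j • y' = (p : ℤ) • z) :
    ∃ (g : CuspForm (Gamma0 (N * q)) 2) (𝔪' : Ideal (integralClosure ℤ ℂ)),
      g.IsNormalizedEigenform ∧ 𝔪'.IsMaximal ∧ (p : integralClosure ℤ ℂ) ∈ 𝔪' ∧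
      (∀ ℓ : ℕ, ℓ.Prime → W.IsGoodPrimeFor ℓ → ¬ ℓ ∣ N * q → ℓ ≠ p →
        ∃ a : integralClosure ℤ ℂ, (a : ℂ) = ModularFormClass.qCoeff g ℓ ∧
          a - ((W.apOfModel ℓ : ℤ) : integralClosure ℤ ℂ) ∈ 𝔪') ∧
      g.IsNewAt q := by
  classical
  obtain ⟨χ, 𝔪', v, hmax', hv0, hχ, hχ𝔞⟩ := exists_lift_ker D y' h0 hy' hgen
  -- transport to `Hom(Γ₀(Nq), ℂ)`
  set w : Additive ↥(Gamma0 (N * q)) →+ ℂ := LatticeC.JJ (N * q) (kerD D) v with hw
  have hwmem : w ∈ parHomAdd (N * q) ℂ := LatticeC.JJ_mem (N * q) (kerD D) v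
  have hw0 : w ≠ 0 := by
    intro h
    apply hv0
    apply LatticeC.JJ_injective (N * q) (kerD D)
    rw [← hw, h, map_zero]
  have hweig : ∀ j : Idx W p N q, heckeAddP (N * q) j.1 j.2.2.1 w = χ (X j) • w := by
    intro j
    have h1 := LatticeC.JJ_hecke (N * q) (kerD D) j.1 j.2.2.1 (t₀ D j) (fun ψ => rfl) v
    rw [hw, ← h1, hχ j, map_smul]
  have hc : D.cores ℂ w = 0 :=
    LatticeC.JJ_natural_eq_zero (N * q) (kerD D) D.cores D.cores_comp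
      (cores_eq_zero_of_mem_kerD D) v
  have hce : D.coresEta ℂ w = 0 :=
    LatticeC.JJ_natural_eq_zero (N * q) (kerD D) D.coresEta D.coresEta_comp
      (coresEta_eq_zero_of_mem_kerD D) v
  have hU := D.U2 w hwmem hc hce
  -- the eigenform
  let S : Set Nat.Primes := Set.range (Subtype.val : Idx W p N q → Nat.Primes)
  have hS : ∀ ℓ ∈ S, ¬ (ℓ : ℕ) ∣ N * q := by
    rintro _ ⟨j, rfl⟩
    exact j.2.2.1
  let b : Nat.Primes → ℂ := fun ℓ =>
    if h : W.IsGoodPrimeFor ℓ ∧ ¬ (ℓ : ℕ) ∣ N * q ∧ (ℓ : ℕ) ≠ p then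
      χ (X (⟨ℓ, h⟩ : Idx W p N q)) else 0
  have hb : ∀ j : Idx W p N q, b j.1 = χ (X j) := fun j => dif_pos j.2
  obtain ⟨g, hg, hcoef, hnew⟩ := DS1.exists_eigenform_of_eigenvector (N * q) q
    (Dvd.intro_left N rfl) S hS b w hwmem hw0 (by
      rintro _ ⟨j, rfl⟩
      rw [hb j]
      exact hweig j) hU
  refine ⟨g, 𝔪', hg, hmax', ?_, ?_, hnew⟩
  · obtain ⟨c, hc1, hc2⟩ := hχ𝔞 _ (C_p_mem p aW)
    have hc3 : c = (p : integralClosure ℤ ℂ) := by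
      apply Subtype.ext
      rw [hc1]
      have : (C (p : ℤ) : MvPolynomial (Idx W p N q) ℤ) = ((p : ℤ) : MvPolynomial _ ℤ) := by
        simp
      rw [this, map_intCast]
      simp
    rwa [hc3] at hc2
  · intro ℓ hℓ hgood hnd hℓp
    let j : Idx W p N q := ⟨⟨ℓ, hℓ⟩, hgood, hnd, hℓp⟩
    obtain ⟨c, hc1, hc2⟩ := hχ𝔞 _ (X_sub_C_mem p aW j)
    refine ⟨c + ((W.apOfModel ℓ : ℤ) : integralClosure ℤ ℂ), ?_, ?_⟩
    · have h1 : ModularFormClass.qCoeff g ℓ = χ (X j) := by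
        rw [← hb j]
        exact hcoef j.1 ⟨j, rfl⟩
      rw [h1]
      push_cast
      rw [hc1, map_sub]
      have : (C (aW j) : MvPolynomial (Idx W p N q) ℤ) = ((aW j : ℤ) : MvPolynomial _ ℤ) := by
        simp
      rw [this, map_intCast]
      show χ (X j) - ((aW j : ℤ) : ℂ) + ((W.apOfModel ℓ : ℤ) : ℂ) = χ (X j)
      have : aW j = W.apOfModel ℓ := rfl
      rw [this]
      ring
    · rw [add_sub_cancel_right]
      exact hc2

end StepB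

/-! ### The assembly -/

/-- **S41 (level raising) from the interface data.** -/
theorem s41_of_data {W : WeierstrassCurve ℤ} {p N q' : ℕ} [Fact q'.Prime] (hp : p.Prime)
    (hN : 0 < N) {hq'N : ¬ q' ∣ N} (D : DegData N q' hq'N) (PD : PDData p D)
    (hIH : IharaInput p D) (hNE : NotEisenstein W p)
    (f : CuspForm (Gamma0 N) 2) (𝔪 : Ideal (integralClosure ℤ ℂ))
    (hf : f.IsNormalizedEigenform) (hmax : 𝔪.IsMaximal) (hpm : (p : integralClosure ℤ ℂ) ∈ 𝔪)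
    (hcong : ∀ ℓ : ℕ, ℓ.Prime → W.IsGoodPrimeFor ℓ → ¬ ℓ ∣ N → ℓ ≠ p →
      ∃ a : integralClosure ℤ ℂ, (a : ℂ) = ModularFormClass.qCoeff f ℓ ∧
        a - ((W.apOfModel ℓ : ℤ) : integralClosure ℤ ℂ) ∈ 𝔪)
    (hLR : ∃ a : integralClosure ℤ ℂ, (a : ℂ) = ModularFormClass.qCoeff f q' ∧
      a ^ 2 - ((q' : integralClosure ℤ ℂ) + 1) ^ 2 ∈ 𝔪) :
    ∃ (g : CuspForm (Gamma0 (N * q')) 2) (𝔪' : Ideal (integralClosure ℤ ℂ)),
      g.IsNormalizedEigenform ∧ 𝔪'.IsMaximal ∧ (p : integralClosure ℤ ℂ) ∈ 𝔪' ∧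
      (∀ ℓ : ℕ, ℓ.Prime → W.IsGoodPrimeFor ℓ → ¬ ℓ ∣ N * q' → ℓ ≠ p →
        ∃ a : integralClosure ℤ ℂ, (a : ℂ) = ModularFormClass.qCoeff g ℓ ∧
          a - ((W.apOfModel ℓ : ℤ) : integralClosure ℤ ℂ) ∈ 𝔪') ∧
      g.IsNewAt q' := by
  have hq' : q'.Prime := Fact.out
  have : NeZero N := ⟨hN.ne'⟩
  have : NeZero (N * q') := ⟨mul_ne_zero hN.ne' hq'.ne_zero⟩
  have : Fact p.Prime := ⟨hp⟩
  obtain ⟨ε, v, hε, hv, hvgood, hvq⟩ :=
    Occ.exists_lattice_eigenvector N hp hq' hq'N f 𝔪 hf hmax hpm hcong hLR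
  obtain ⟨y', h0, hy', hgen⟩ := exists_ker_eigenvector D PD hIH hNE ε hε v hv
    (fun j => hvgood j.1 j.not_dvd j.2.1 j.2.2.2) hvq
  exact exists_eigenform_of_ker_eigenvector D y' h0 hy' hgen

end Fermat.Agent.P3LR.Assembly
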