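/-
S41 (level raising), TOP: the frozen statement from the two remaining inputs of block [PD]
(`ThetaAt M`, `BridgeAt M` of `S41/PD/Package.lean`, at all levels).  Everything else is plugged:
(A) `AsmInstFinal.degData`, [IH] `S41.IH.iharaInput` + `CSP.Base.ker_trivial_of_liftData`,
[NE] `NE.Shape.notEisenstein`, and the assembly core `Assembly.s41_of_data`.
-/
import Mathlib
import Fermat.Agent.P3LR.Assembly
import Fermat.Agent.P3LR.AsmInstFinal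
import Fermat.Agent.S41.PD.Package
import Fermat.Agent.S41.IH.Final
import Fermat.Agent.S41.CSP.Base
import Fermat.Agent.S41.NE.Shape

set_option autoImplicit false

open WeierstrassCurve WeierstrassCurve.Affine WeierstrassCurve.Affine.Point CongruenceSubgroup
open scoped MatrixGroups

namespace Fermat.Agent.P3LR.Top

open Fermat.Agent.N4F.Tors.HeckeHom Fermat.Agent.P3LR.AsmDefs Fermat.Agent.P3LR.AsmInst
  Fermat.Agent.P3LR.AsmInstFinal Fermat.Agent.S41.PD.Package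

/-- [IH2-F]: the finite group statement, unconditional for odd `p`. -/
theorem lStatement {N p : ℕ} [NeZero N] (hp : p.Prime) (hp2 : p ≠ 2) :
    Fermat.Agent.S41.IH.LStatement.{0} N p :=
  fun _ _ L => Fermat.Agent.S41.CSP.Base.ker_trivial_of_liftData hp hp2 L

/-- [IH] in the shape of the assembly. -/
theorem iharaInput {N q p : ℕ} [Fact q.Prime] [NeZero N] (hqN : ¬ q ∣ N) (hp : p.Prime)
    (hp2 : p ≠ 2) (hpq : p ≠ q) : IharaInput p (degData N q hqN) := by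
  have : Fact p.Prime := ⟨hp⟩
  intro x₁ x₂ h₁ h₂ h
  exact Fermat.Agent.S41.IH.iharaInput hqN hpq hp2 (lStatement hp hp2) ⟨x₁, h₁⟩ ⟨x₂, h₂⟩ h

/-- **S41 from (Θ) and the bridge at all levels.** -/
theorem s41_of_theta_bridge
    (hΘ : ∀ (M : ℕ) [NeZero M], ThetaAt M) (hB : ∀ (M : ℕ) [NeZero M], BridgeAt M)
    (E : WeierstrassCurve ℚ) [E.IsElliptic] {W : WeierstrassCurve ℤ} (hW : W.IsIntegralModelOf E)
    {p N q' : ℕ} (hp : p.Prime) (hp2 : p ≠ 2) (hN : 0 < N) (hq' : q'.Prime) (hq'N : ¬ q' ∣ N)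
    (hq'p : q' ≠ p)
    (hirr : GaloisRepIsIrreducible (K := AlgebraicClosure ℚ) ℚ E p)
    (f : CuspForm (CongruenceSubgroup.Gamma0 N) 2) (𝔪 : Ideal (integralClosure ℤ ℂ))
    (hf : f.IsNormalizedEigenform) (hmax : 𝔪.IsMaximal) (hpm : (p : integralClosure ℤ ℂ) ∈ 𝔪)
    (hcong : ∀ ℓ : ℕ, ℓ.Prime → W.IsGoodPrimeFor ℓ → ¬ ℓ ∣ N → ℓ ≠ p →
      ∃ a : integralClosure ℤ ℂ, (a : ℂ) = ModularFormClass.qCoeff f ℓ ∧
        a - ((W.apOfModel ℓ : ℤ) : integralClosure ℤ ℂ) ∈ 𝔪)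
    (hLR : ∃ a : integralClosure ℤ ℂ, (a : ℂ) = ModularFormClass.qCoeff f q' ∧
      a ^ 2 - ((q' : integralClosure ℤ ℂ) + 1) ^ 2 ∈ 𝔪) :
    ∃ (g : CuspForm (CongruenceSubgroup.Gamma0 (N * q')) 2) (𝔪' : Ideal (integralClosure ℤ ℂ)),
      g.IsNormalizedEigenform ∧ 𝔪'.IsMaximal ∧ (p : integralClosure ℤ ℂ) ∈ 𝔪' ∧
      (∀ ℓ : ℕ, ℓ.Prime → W.IsGoodPrimeFor ℓ → ¬ ℓ ∣ N * q' → ℓ ≠ p →
        ∃ a : integralClosure ℤ ℂ, (a : ℂ) = ModularFormClass.qCoeff g ℓ ∧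
          a - ((W.apOfModel ℓ : ℤ) : integralClosure ℤ ℂ) ∈ 𝔪') ∧
      g.IsNewAt q' := by
  have : Fact q'.Prime := ⟨hq'⟩
  have : NeZero N := ⟨hN.ne'⟩
  exact Fermat.Agent.P3LR.Assembly.s41_of_data hp hN (degData N q' hq'N)
    (pdData hΘ hB p hp.ne_zero hq'N (r1Hyp N q' hq'N) (r2Hyp N q' hq'N))
    (iharaInput hq'N hp hp2 (Ne.symm hq'p))
    (Fermat.Agent.S41.NE.Shape.notEisenstein E hW hp hp2 hirr) f 𝔪 hf hmax hpm hcong hLR

end Fermat.Agent.P3LR.Top
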